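import Mathlib

/-!
# S31, piece BA: Artin-Rees for a commutative ring acting faithfully on a lattice
-/

set_option autoImplicit false

namespace Fermat.Agent.S31

/-- `𝕋` acts faithfully on the lattice `Λ`: an element of `𝕋` which is divisible by `p ^ k` in
`End Λ` is divisible by `p ^ (k - c₀)` in `𝕋`. -/
theorem exists_artinRees_bound {𝕋 Λ : Type*} [CommRing 𝕋] [AddCommGroup Λ] [Module.Free ℤ Λ]
    [Module.Finite ℤ Λ] (φ : 𝕋 →+* Module.End ℤ Λ) (hφ : Function.Injective φ) (p : ℕ) :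
    ∃ c₀ : ℕ, ∀ (k : ℕ) (a : 𝕋), (∃ h : Module.End ℤ Λ, φ a = (p ^ k : ℕ) • h) →
      ∃ a' : 𝕋, a = (p ^ (k - c₀) : ℕ) • a' := by
  let Nn : Submodule ℤ (Module.End ℤ Λ) := LinearMap.range φ.toAddMonoidHom.toIntLinearMap
  obtain ⟨c₀, hc₀⟩ := Ideal.exists_pow_inf_eq_pow_smul (Ideal.span {(p : ℤ)}) Nn
  refine ⟨c₀, fun k a ⟨h, hh⟩ => ?_⟩
  rcases lt_or_ge k c₀ with hk | hk
  · refine ⟨a, ?_⟩
    rw [Nat.sub_eq_zero_of_le hk.le, pow_zero, one_smul]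
  · have h1 : φ a ∈ (Ideal.span {(p : ℤ)} ^ k • ⊤ ⊓ Nn : Submodule ℤ (Module.End ℤ Λ)) := by
      refine ⟨?_, ⟨a, rfl⟩⟩
      rw [Ideal.span_singleton_pow, hh]
      have : ((p ^ k : ℕ) • h : Module.End ℤ Λ) = ((p : ℤ) ^ k) • h := by
        rw [← Nat.cast_smul_eq_nsmul ℤ]; push_cast; rfl
      rw [this]
      exact Submodule.smul_mem_smul (Ideal.mem_span_singleton_self _) Submodule.mem_top
    rw [hc₀ k hk] at h1
    have h2 : φ a ∈ (Ideal.span {(p : ℤ)} ^ (k - c₀) • Nn : Submodule ℤ (Module.End ℤ Λ)) :=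
      Submodule.smul_mono le_rfl inf_le_right h1
    rw [Ideal.span_singleton_pow, Submodule.ideal_span_singleton_smul] at h2
    obtain ⟨_, ⟨a', rfl⟩, ha'⟩ := h2
    refine ⟨a', hφ ?_⟩
    rw [map_nsmul, ← ha']
    change ((p : ℤ) ^ (k - c₀)) • φ a' = _
    rw [← Nat.cast_smul_eq_nsmul ℤ]; push_cast; rfl

end Fermat.Agent.S31
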