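import Mathlib
import Fermat.Prelude.Def_CuspForm_HeckeGaloisRepDatum

/-!
# S31: the interface with project GR

`HeckeGaloisModule N S p k`: a module `W` over the Hecke algebra, killed by `p ^ k`, with a
commuting action of `Gal(ℚ̄/ℚ)` through a finite level, satisfying the Eichler-Shimura relation at
all Frobenius elements outside `S` and unramified outside `N p`.
(`W = M_{p^k}(ℚ̄)`, the Kummer group of `X₀(N)`.)
-/

set_option autoImplicit false

namespace Fermat.Agent.S31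

open CuspForm

/-- the absolute Galois group of `ℚ`. -/
abbrev GQ : Type := AlgebraicClosure ℚ ≃ₐ[ℚ] AlgebraicClosure ℚ

structure HeckeGaloisModule (N : ℕ) [NeZero N] (S : Set ℕ) (p k : ℕ) : Type 1 where
  W : Type
  [instAddCommGroup : AddCommGroup W]
  [instModule : Module (heckeAlgebra N 2 S) W]
  r : GQ →* Module.End (heckeAlgebra N 2 S) W
  level : GaloisFactorsThroughFiniteLevel r
  killed : ∀ w : W, (p ^ k : ℕ) • w = 0
  eichlerShimura : ∀ (ℓ : ℕ) (hℓ : ℓ.Prime) (hℓN : ¬ ℓ ∣ N) (hℓS : ℓ ∉ S),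
    ∀ A : ValuationSubring (AlgebraicClosure ℚ), A.LiesOverPrime ℓ →
      ∀ σ : GQ, A.IsFrobeniusAt σ ℓ → ∀ w : W,
        r σ (r σ w) - (heckeAlgebra.T hℓ hℓN hℓS : heckeAlgebra N 2 S) • r σ w +
          (ℓ : heckeAlgebra N 2 S) • w = 0
  unramified : ∀ q : ℕ, q.Prime → ¬ q ∣ N → q ≠ p →
    ∀ P : ValuationSubring (AlgebraicClosure ℚ), P.LiesOverPrime q →
      ∀ σ ∈ P.inertiaSubgroupIn ℚ, r σ = 1

attribute [instance] HeckeGaloisModule.instAddCommGroup HeckeGaloisModule.instModule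

/-- What S31 needs from GR: a family of Hecke-Galois modules which is asymptotically faithful. -/
def HasFaithfulHeckeGaloisModules (N : ℕ) [NeZero N] (S : Set ℕ) (p : ℕ) : Prop :=
  ∃ c₀ : ℕ, ∀ k : ℕ, ∃ M : HeckeGaloisModule N S p k,
    ∀ a : heckeAlgebra N 2 S, (∀ w : M.W, a • w = 0) →
      ∃ (c : ℕ) (a' : heckeAlgebra N 2 S), ¬ p ∣ c ∧ c • a = (p ^ (k - c₀) : ℕ) • a'

/-- Frobenius' density theorem in the existence form (GR-G `exists_frobenius_zpowers_eq`). -/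
def FrobeniusDensity : Prop :=
  ∀ (F : IntermediateField ℚ (AlgebraicClosure ℚ)) [FiniteDimensional ℚ F] [IsGalois ℚ F]
    (S : Finset ℕ) (σ : GQ),
    ∃ (ℓ : ℕ) (A : ValuationSubring (AlgebraicClosure ℚ)) (τ : GQ),
      ℓ.Prime ∧ ℓ ∉ S ∧ A.LiesOverPrime ℓ ∧ A.IsFrobeniusAt τ ℓ ∧
        Subgroup.zpowers (AlgEquiv.restrictNormalHom F τ) =
          Subgroup.zpowers (AlgEquiv.restrictNormalHom F σ)

end Fermat.Agent.S31
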