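import Mathlib
import Fermat.Agent.S31.Iface
import Fermat.Agent.S31.BridgeA
import Fermat.Agent.GR.H.Iface
import Fermat.Agent.GR.G.Main

/-!
# S31, piece B: from the GR interface `TateData` to `HasFaithfulHeckeGaloisModules`
-/

set_option autoImplicit false

namespace Fermat.Agent.S31

open CuspForm

section BridgeAbstract

variable {Λ : Type} [AddCommGroup Λ] (m : ℕ)

/-- the submodule `m Λ` -/
def Bridge_sub (Λ : Type) [AddCommGroup Λ] (m : ℕ) : Submodule ℤ Λ :=
  LinearMap.range ((m : ℤ) • (LinearMap.id : Λ →ₗ[ℤ] Λ))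

lemma Bridge_mem_sub {x : Λ} : x ∈ Bridge_sub Λ m ↔ ∃ y : Λ, x = (m : ℤ) • y := by
  constructor
  · rintro ⟨y, rfl⟩
    exact ⟨y, rfl⟩
  · rintro ⟨y, rfl⟩
    exact ⟨y, rfl⟩

lemma Bridge_le_comap (f : Module.End ℤ Λ) : Bridge_sub Λ m ≤ (Bridge_sub Λ m).comap f := by
  intro x hx
  obtain ⟨y, rfl⟩ := (Bridge_mem_sub m).mp hx
  exact (Bridge_mem_sub m).mpr ⟨f y, map_smul f _ _⟩

/-- reduction of endomorphisms modulo `m` -/
def Bridge_red : Module.End ℤ Λ →+* Module.End ℤ (Λ ⧸ Bridge_sub Λ m) where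
  toFun f := Submodule.mapQ _ _ f (Bridge_le_comap m f)
  map_one' := by
    ext x
    rfl
  map_mul' f g := by
    ext x
    rfl
  map_zero' := by
    ext x
    rfl
  map_add' f g := by
    ext x
    rfl

@[simp] lemma Bridge_red_mk (f : Module.End ℤ Λ) (x : Λ) :
    Bridge_red m f (Submodule.Quotient.mk x) = Submodule.Quotient.mk (f x) := rfl

lemma Bridge_red_eq {f g : Module.End ℤ Λ} (h : GR.H.EndCong m f g) :
    Bridge_red m f = Bridge_red m g := by
  obtain ⟨h, hh⟩ := h
  ext x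
  show (Submodule.Quotient.mk (f x) : Λ ⧸ Bridge_sub Λ m) = Submodule.Quotient.mk (g x)
  rw [Submodule.Quotient.eq]
  refine (Bridge_mem_sub m).mpr ⟨h x, ?_⟩
  have := LinearMap.congr_fun hh x
  simpa using this

/-- divisibility of an endomorphism of a free module can be tested pointwise -/
lemma Bridge_exists_smul [Module.Free ℤ Λ] (f : Module.End ℤ Λ)
    (hf : ∀ x : Λ, ∃ y : Λ, f x = (m : ℤ) • y) : ∃ h : Module.End ℤ Λ, f = m • h := by
  classical
  let b := Module.Free.chooseBasis ℤ Λ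
  choose y hy using hf
  refine ⟨b.constr ℤ (fun i => y (b i)), b.ext fun i => ?_⟩
  rw [LinearMap.smul_apply, Module.Basis.constr_basis, hy, natCast_zsmul]

/-- a family of commuting endomorphisms as a representation over `𝕋` -/
def Bridge_rep {𝕋 G Q : Type} [CommRing 𝕋] [Monoid G] [AddCommGroup Q]
    (ψ : 𝕋 →+* Module.End ℤ Q) (g : G → Module.End ℤ Q) (h1 : g 1 = 1)
    (hmul : ∀ σ τ, g (σ * τ) = g σ * g τ) (hcomm : ∀ σ t, g σ * ψ t = ψ t * g σ) :
    letI : Module 𝕋 Q := Module.compHom Q ψ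
    G →* Module.End 𝕋 Q :=
  letI : Module 𝕋 Q := Module.compHom Q ψ
  { toFun := fun σ =>
      { toFun := g σ
        map_add' := map_add (g σ)
        map_smul' := fun t w => LinearMap.congr_fun (hcomm σ t) w }
    map_one' := by
      ext w
      exact LinearMap.congr_fun h1 w
    map_mul' := fun σ τ => by
      ext w
      exact LinearMap.congr_fun (hmul σ τ) w }

end BridgeAbstract

/-- the Hecke-Galois module `Λ / p ^ k Λ`. -/
theorem exists_heckeGaloisModule {N : ℕ} [NeZero N] {p : ℕ} (S : Set ℕ) (hpS : p ∈ S)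
    (D : GR.H.TateData N p) (k : ℕ) :
    ∃ M : HeckeGaloisModule N S p k, ∀ a : heckeAlgebra N 2 S, (∀ w : M.W, a • w = 0) →
      ∃ h : Module.End ℤ D.Λ,
        D.hecke (Subalgebra.inclusion (heckeAlgebra_mono (Set.empty_subset S)) a) =
          (p ^ k : ℕ) • h := by
  classical
  let ι : heckeAlgebra N 2 S →+* GR.H.HeckeFull N :=
    (Subalgebra.inclusion (heckeAlgebra_mono (Set.empty_subset S))).toRingHom
  let red := Bridge_red (Λ := D.Λ) (p ^ k)
  let ψ : heckeAlgebra N 2 S →+* Module.End ℤ (D.Λ ⧸ Bridge_sub D.Λ (p ^ k)) :=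
    red.comp (D.hecke.comp ι)
  let g : GQ → Module.End ℤ (D.Λ ⧸ Bridge_sub D.Λ (p ^ k)) := fun σ => red (D.gal k σ)
  have h1 : g 1 = 1 := by
    show red (D.gal k 1) = 1
    rw [← map_one red]
    exact Bridge_red_eq _ (D.gal_one k)
  have hmul : ∀ σ τ, g (σ * τ) = g σ * g τ := fun σ τ => by
    show red (D.gal k (σ * τ)) = red (D.gal k σ) * red (D.gal k τ)
    rw [← map_mul red]
    exact Bridge_red_eq _ (D.gal_mul k σ τ)
  have hcomm : ∀ σ t, g σ * ψ t = ψ t * g σ := fun σ t => by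
    show red (D.gal k σ) * red (D.hecke (ι t)) = red (D.hecke (ι t)) * red (D.gal k σ)
    rw [← map_mul red, ← map_mul red]
    exact Bridge_red_eq _ (D.gal_hecke k σ (ι t))
  let inst : Module (heckeAlgebra N 2 S) (D.Λ ⧸ Bridge_sub D.Λ (p ^ k)) := Module.compHom _ ψ
  refine ⟨{ W := D.Λ ⧸ Bridge_sub D.Λ (p ^ k)
            instAddCommGroup := inferInstance
            instModule := inst
            r := Bridge_rep ψ g h1 hmul hcomm
            level := ?_
            killed := ?_
            eichlerShimura := ?_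
            unramified := ?_ }, ?_⟩
  · obtain ⟨L, hL, hL'⟩ := D.gal_level k
    refine ⟨L, hL, fun σ hσ => LinearMap.ext fun w => ?_⟩
    have : g σ = 1 := by
      show red (D.gal k σ) = 1
      rw [← map_one red]
      exact Bridge_red_eq _ (hL' σ hσ)
    exact LinearMap.congr_fun this w
  · intro w
    induction w using Submodule.Quotient.induction_on with
    | _ x =>
      rw [← Submodule.Quotient.mk_smul, Submodule.Quotient.mk_eq_zero]
      exact (Bridge_mem_sub _).mpr ⟨x, (natCast_zsmul _ _).symm⟩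
  · intro ℓ hℓ hℓN hℓS A hA σ hσ w
    have hℓp : ℓ ≠ p := fun h => hℓS (h ▸ hpS)
    have key := Bridge_red_eq _ (D.gal_frob ℓ hℓ hℓN hℓp A hA σ hσ k)
    have key' := LinearMap.congr_fun key w
    have e1 : ι (heckeAlgebra.T hℓ hℓN hℓS) = GR.H.HeckeFull.T hℓ hℓN := Subtype.ext rfl
    have e2 : ψ (ℓ : heckeAlgebra N 2 S) = red ((ℓ : ℤ) • 1) := by
      show red (D.hecke (ι (ℓ : heckeAlgebra N 2 S))) = _
      rw [map_natCast, map_natCast]
      congr 1
      simp
    show g σ (g σ w) - ψ (heckeAlgebra.T hℓ hℓN hℓS) (g σ w) + ψ (ℓ : heckeAlgebra N 2 S) w = 0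
    rw [e2]
    show red (D.gal k σ) (red (D.gal k σ) w) -
      red (D.hecke (ι (heckeAlgebra.T hℓ hℓN hℓS))) (red (D.gal k σ) w) + _ = 0
    rw [e1]
    rw [map_add, map_sub, map_mul, map_mul, map_zero] at key'
    exact key'
  · intro q hq hqN hqp P hP σ hσ
    refine LinearMap.ext fun w => ?_
    have : g σ = 1 := by
      show red (D.gal k σ) = 1
      rw [← map_one red]
      exact Bridge_red_eq _ (D.gal_unram q hq hqN hqp P hP σ hσ k)
    exact LinearMap.congr_fun this w
  · intro a ha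
    refine Bridge_exists_smul (p ^ k) _ fun x => ?_
    have := ha (Submodule.Quotient.mk x)
    exact (Bridge_mem_sub _).mp ((Submodule.Quotient.mk_eq_zero _).mp this)

theorem hasFaithfulHeckeGaloisModules_of_tateData {N : ℕ} [NeZero N] {p : ℕ} (hp : p.Prime)
    (S : Set ℕ) (hpS : p ∈ S) (D : GR.H.TateData N p) (hinj : Function.Injective D.hecke) :
    HasFaithfulHeckeGaloisModules N S p := by
  let ι : heckeAlgebra N 2 S →+* GR.H.HeckeFull N :=
    (Subalgebra.inclusion (heckeAlgebra_mono (Set.empty_subset S))).toRingHom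
  have hι : Function.Injective ι := Subalgebra.inclusion_injective _
  obtain ⟨c₀, hc₀⟩ := exists_artinRees_bound (D.hecke.comp ι) (hinj.comp hι) p
  refine ⟨c₀, fun k => ?_⟩
  obtain ⟨M, hM⟩ := exists_heckeGaloisModule S hpS D k
  refine ⟨M, fun a ha => ?_⟩
  obtain ⟨a', ha'⟩ := hc₀ k a (hM a ha)
  exact ⟨1, a', fun h => hp.one_lt.ne' (Nat.dvd_one.mp h), by rw [one_smul]; exact ha'⟩

theorem frobeniusDensity : FrobeniusDensity := fun F _ _ S σ =>
  GR.G.exists_frobenius_zpowers_eq F S σ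

end Fermat.Agent.S31
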