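import Fermat.Agent.S31.Apply
import Fermat.Agent.S31.Bridge
import Fermat.Agent.GR.I.Level

/-!
# S31 from the GR interfaces (`KummerData` with faithful Hecke action + `CruxAll`)
-/

set_option autoImplicit false

namespace Fermat.Agent.S31

variable {p : ℕ} {N : ℕ} [NeZero N] {S : Finset ℕ}
  {𝒪 : Type} [CommRing 𝒪] [IsDomain 𝒪] [IsDiscreteValuationRing 𝒪]
  [IsAdicComplete (IsLocalRing.maximalIdeal 𝒪) 𝒪]
  {θ : CuspForm.heckeAlgebra N 2 (↑S : Set ℕ) →+* IsLocalRing.ResidueField 𝒪}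
  {T : Type} [CommRing T] [IsLocalRing T] [IsNoetherianRing T]
  [IsAdicComplete (IsLocalRing.maximalIdeal T) T] [Algebra 𝒪 T] [IsLocalHom (algebraMap 𝒪 T)]
  [Module.Finite 𝒪 T] [Module.Free 𝒪 T]

theorem isUnramifiedAt_of_tateData (hp : p.Prime)
    (D : GR.H.TateData N p) (hinj : Function.Injective D.hecke)
    (hp𝒪 : (p : 𝒪) ∈ IsLocalRing.maximalIdeal 𝒪) (hpS : p ∈ S)
    (hNS : ∀ q : ℕ, q.Prime → q ∣ N → q ∈ S)
    (H : CuspForm.HeckeGaloisRepDatum N (↑S : Set ℕ) 𝒪 θ T)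
    (q : ℕ) (hq : q.Prime) (hqS : q ∉ S) :
    H.ρ.IsUnramifiedAt q :=
  isUnramifiedAt_of_interface frobeniusDensity hp hp𝒪 hpS hNS
    (hasFaithfulHeckeGaloisModules_of_tateData hp ↑S hpS D hinj) H q hq hqS

theorem isUnramifiedAt_of_kummerData (hp : p.Prime)
    (D : GR.I.KummerData N) (hinj : Function.Injective D.hecke) (hcrux : GR.I.CruxAll N)
    (hp𝒪 : (p : 𝒪) ∈ IsLocalRing.maximalIdeal 𝒪) (hpS : p ∈ S)
    (hNS : ∀ q : ℕ, q.Prime → q ∣ N → q ∈ S)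
    (H : CuspForm.HeckeGaloisRepDatum N (↑S : Set ℕ) 𝒪 θ T)
    (q : ℕ) (hq : q.Prime) (hqS : q ∉ S) :
    H.ρ.IsUnramifiedAt q :=
  isUnramifiedAt_of_tateData hp (D.toLevelData hcrux p hp).toTateData hinj hp𝒪 hpS hNS H q hq hqS

end Fermat.Agent.S31
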