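import Mathlib

/-!
# S31: the polynomials `fricke` and `powSum`
-/

set_option autoImplicit false

namespace Fermat.Agent.S31

/-- `det (XY - YX)` in terms of traces and determinants (rank two). -/
def fricke {R : Type*} [CommRing R] (tg th tgh dg dh : R) : R :=
  4 * dg * dh - tg ^ 2 * dh - th ^ 2 * dg + tg * th * tgh - tgh ^ 2

/-- power sums `α ^ b + β ^ b` for `α + β = t`, `α β = d`. -/
def powSum {R : Type*} [CommRing R] (t d : R) : ℕ → R
  | 0 => 2
  | 1 => t
  | (b + 2) => t * powSum t d (b + 1) - d * powSum t d b

theorem map_fricke {R R' : Type*} [CommRing R] [CommRing R'] (f : R →+* R')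
    (tg th tgh dg dh : R) :
    f (fricke tg th tgh dg dh) = fricke (f tg) (f th) (f tgh) (f dg) (f dh) := by
  simp only [fricke, map_sub, map_add, map_mul, map_pow, map_ofNat]

theorem map_powSum {R R' : Type*} [CommRing R] [CommRing R'] (f : R →+* R') (t d : R) (b : ℕ) :
    f (powSum t d b) = powSum (f t) (f d) b := by
  induction b using Nat.strong_induction_on with
  | _ b ih =>
    match b with
    | 0 => simp only [powSum, map_ofNat]
    | 1 => simp only [powSum]
    | (b + 2) => simp [powSum, ih (b + 1) (by omega), ih b (by omega)]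

end Fermat.Agent.S31
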