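import Mathlib
import Fermat.Agent.S31.Defs

/-!
# S31, piece C: consequences of the Cayley-Hamilton type relations in an algebra
-/

set_option autoImplicit false

namespace Fermat.Agent.S31

section
variable {A R : Type*} [CommRing A] [CommRing R] [Algebra A R]

theorem commId_powSum_eq (x t d : R) (hx : x * x - t * x + d = 0) (b : ℕ) :
    powSum t d b = x ^ b + (t - x) ^ b := by
  induction b using Nat.strong_induction_on with
  | _ b ih =>
    match b with
    | 0 => simp only [powSum, pow_zero]; norm_num
    | 1 => simp only [powSum, pow_one]; ring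
    | (b + 2) =>
      simp only [powSum, ih (b + 1) (by omega), ih b (by omega)]
      linear_combination (-(x ^ b + (t - x) ^ b)) * hx

theorem commId_pow_relation_comm' (x t d : R) (hx : x * x - t * x + d = 0) (b : ℕ) :
    x ^ b * x ^ b - powSum t d b * x ^ b + d ^ b = 0 := by
  rw [commId_powSum_eq x t d hx b]
  have hd : d = x * (t - x) := by linear_combination hx
  rw [hd, mul_pow]
  ring

theorem commId_pow_relation_comm (x : R) (t d : A) (hx : x * x - t • x + d • (1 : R) = 0)
    (b : ℕ) : x ^ b * x ^ b - powSum t d b • x ^ b + (d ^ b) • (1 : R) = 0 := by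
  have h := commId_pow_relation_comm' x (algebraMap A R t) (algebraMap A R d)
    (by rw [Algebra.smul_def, Algebra.smul_def, mul_one] at hx; exact hx) b
  rw [Algebra.smul_def, Algebra.smul_def, mul_one, map_powSum, map_pow]
  exact h

theorem commId_fricke_comm (x y : R) (tg th tgh dg dh : A)
    (hx : x * x - tg • x + dg • (1 : R) = 0) (hy : y * y - th • y + dh • (1 : R) = 0)
    (h : tgh • (1 : R) = x * y + (tg • (1 : R) - x) * (th • (1 : R) - y)) :
    fricke tg th tgh dg dh • (1 : R) = 0 := by
  simp only [Algebra.smul_def, mul_one] at hx hy h ⊢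
  rw [map_fricke]
  unfold fricke
  generalize algebraMap A R tg = T at *
  generalize algebraMap A R th = T' at *
  generalize algebraMap A R tgh = G at *
  generalize algebraMap A R dg = D at *
  generalize algebraMap A R dh = D' at *
  linear_combination (4 * D' - T' ^ 2) * hx + (4 * (T * x - x * x) - T ^ 2) * hy
    + (T * T' - G - (x * y + (T - x) * (T' - y))) * h

end

section
variable {A E : Type*} [CommRing A] [Ring E] [Algebra A E]

/-- if `x` satisfies `x² - t x + d = 0` then `x ^ b` satisfies the relation with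
`powSum t d b` and `d ^ b`. -/
theorem pow_relation (x : E) (t d : A) (hx : x * x - t • x + d • (1 : E) = 0) (b : ℕ) :
    x ^ b * x ^ b - powSum t d b • x ^ b + (d ^ b) • (1 : E) = 0 := by
  have hcomm : ∀ a ∈ ({x} : Set E), ∀ b ∈ ({x} : Set E), a * b = b * a := by
    intro a ha b hb
    rw [Set.mem_singleton_iff] at ha hb
    rw [ha, hb]
  letI : CommRing (Algebra.adjoin A ({x} : Set E)) := Algebra.adjoinCommRingOfComm A hcomm
  let X : Algebra.adjoin A ({x} : Set E) := ⟨x, Algebra.subset_adjoin (Set.mem_singleton x)⟩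
  have hX : X * X - t • X + d • (1 : Algebra.adjoin A ({x} : Set E)) = 0 := Subtype.ext hx
  have := commId_pow_relation_comm X t d hX b
  exact congrArg Subtype.val this

/-- commuting units `x, y` with Cayley-Hamilton type relations for `x`, `y`, `x y`:
the Fricke polynomial vanishes. -/
theorem fricke_smul_one_eq_zero_of_commute (x y : E) (hxu : IsUnit x) (hyu : IsUnit y)
    (hc : Commute x y) (tg th tgh dg dh : A)
    (hx : x * x - tg • x + dg • (1 : E) = 0) (hy : y * y - th • y + dh • (1 : E) = 0)
    (hxy : (x * y) * (x * y) - tgh • (x * y) + (dg * dh) • (1 : E) = 0) :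
    fricke tg th tgh dg dh • (1 : E) = 0 := by
  have hcomm : ∀ a ∈ ({x, y} : Set E), ∀ b ∈ ({x, y} : Set E), a * b = b * a := by
    intro a ha b hb
    rw [Set.mem_insert_iff, Set.mem_singleton_iff] at ha hb
    rcases ha with rfl | rfl <;> rcases hb with rfl | rfl
    · rfl
    · exact hc
    · exact hc.symm
    · rfl
  letI : CommRing (Algebra.adjoin A ({x, y} : Set E)) := Algebra.adjoinCommRingOfComm A hcomm
  let X : Algebra.adjoin A ({x, y} : Set E) := ⟨x, Algebra.subset_adjoin (by simp)⟩
  let Y : Algebra.adjoin A ({x, y} : Set E) := ⟨y, Algebra.subset_adjoin (by simp)⟩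
  have hX : X * X - tg • X + dg • (1 : Algebra.adjoin A ({x, y} : Set E)) = 0 := Subtype.ext hx
  have hY : Y * Y - th • Y + dh • (1 : Algebra.adjoin A ({x, y} : Set E)) = 0 := Subtype.ext hy
  have hXY : (X * Y) * (X * Y) - tgh • (X * Y)
      + (dg * dh) • (1 : Algebra.adjoin A ({x, y} : Set E)) = 0 := Subtype.ext hxy
  -- the key relation, multiplied by `X * Y`
  have key : (X * Y) * (tgh • (1 : Algebra.adjoin A ({x, y} : Set E)))
      = (X * Y) * (X * Y + (tg • (1 : Algebra.adjoin A ({x, y} : Set E)) - X)
        * (th • (1 : Algebra.adjoin A ({x, y} : Set E)) - Y)) := by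
    simp only [Algebra.smul_def, mul_one, map_mul] at hX hY hXY ⊢
    generalize algebraMap A (Algebra.adjoin A ({x, y} : Set E)) tg = T at *
    generalize algebraMap A (Algebra.adjoin A ({x, y} : Set E)) th = T' at *
    generalize algebraMap A (Algebra.adjoin A ({x, y} : Set E)) tgh = G at *
    generalize algebraMap A (Algebra.adjoin A ({x, y} : Set E)) dg = D at *
    generalize algebraMap A (Algebra.adjoin A ({x, y} : Set E)) dh = D' at *
    linear_combination (-1 : Algebra.adjoin A ({x, y} : Set E)) * hXY + D' * hX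
      + (T * X - X * X) * hY
  have key' : (x * y) * (tgh • (1 : E))
      = (x * y) * (x * y + (tg • (1 : E) - x) * (th • (1 : E) - y)) :=
    congrArg Subtype.val key
  have key'' : tgh • (1 : E) = x * y + (tg • (1 : E) - x) * (th • (1 : E) - y) :=
    (hxu.mul hyu).mul_left_cancel key'
  have h : tgh • (1 : Algebra.adjoin A ({x, y} : Set E))
      = X * Y + (tg • (1 : Algebra.adjoin A ({x, y} : Set E)) - X)
        * (th • (1 : Algebra.adjoin A ({x, y} : Set E)) - Y) := Subtype.ext key''
  have := commId_fricke_comm X Y tg th tgh dg dh hX hY h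
  exact congrArg Subtype.val this

end

section
variable {A W : Type*} [CommRing A] [AddCommGroup W] [Module A W]

/-- the same when `x, y` only commute after multiplication by the scalar `e`. -/
theorem fricke_mul_smul_eq_zero (x y : Module.End A W) (hxu : IsUnit x) (hyu : IsUnit y)
    (e : A) (hc : ∀ w : W, e • (x (y w)) = e • (y (x w))) (tg th tgh dg dh : A)
    (hx : ∀ w, x (x w) - tg • x w + dg • w = 0) (hy : ∀ w, y (y w) - th • y w + dh • w = 0)
    (hxy : ∀ w, x (y (x (y w))) - tgh • x (y w) + (dg * dh) • w = 0) :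
    ∀ w : W, (fricke tg th tgh dg dh * e) • w = 0 := by
  intro w
  let N : Submodule A W := LinearMap.range (e • (LinearMap.id : W →ₗ[A] W))
  have hst : ∀ f : Module.End A W, ∀ v ∈ N, f v ∈ N := by
    rintro f v ⟨u, rfl⟩
    exact ⟨f u, by simp⟩
  let res : Module.End A W → Module.End A N := fun f => f.restrict (hst f)
  have res_mul : ∀ f g : Module.End A W, res (f * g) = res f * res g := by
    intro f g
    ext v
    rfl
  have res_one : res 1 = 1 := by
    ext v
    rfl
  have res_unit : ∀ f : Module.End A W, IsUnit f → IsUnit (res f) := by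
    rintro f ⟨u, rfl⟩
    refine ⟨⟨res u, res (u⁻¹ : (Module.End A W)ˣ), ?_, ?_⟩, rfl⟩
    · rw [← res_mul, Units.mul_inv, res_one]
    · rw [← res_mul, Units.inv_mul, res_one]
  have hcomm : Commute (res x) (res y) := by
    ext ⟨v, u, rfl⟩
    change x (y ((e • (LinearMap.id : W →ₗ[A] W)) u)) = y (x ((e • (LinearMap.id : W →ₗ[A] W)) u))
    simpa using hc u
  have h := fricke_smul_one_eq_zero_of_commute (res x) (res y) (res_unit x hxu) (res_unit y hyu)
    hcomm tg th tgh dg dh
    (by ext v; exact hx v) (by ext v; exact hy v) (by ext v; exact hxy v)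
  have h2 := congrArg (fun f : Module.End A N => ((f ⟨e • w, ⟨w, by simp⟩⟩ : N) : W)) h
  simpa [mul_smul] using h2

end

end Fermat.Agent.S31
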