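import Mathlib
import Fermat.Agent.S31.Defs

/-!
# S31, piece MA: trace and determinant identities in rank two
-/

set_option autoImplicit false

namespace Fermat.Agent.S31

theorem det_commutator_matrix {R : Type*} [CommRing R] (X Y : Matrix (Fin 2) (Fin 2) R) :
    (X * Y - Y * X).det = fricke X.trace Y.trace (X * Y).trace X.det Y.det := by
  simp only [fricke, Matrix.det_fin_two, Matrix.trace_fin_two, Matrix.mul_apply, Fin.sum_univ_two,
    Matrix.sub_apply]
  ring

theorem MatA_cayley {R : Type*} [CommRing R] (X : Matrix (Fin 2) (Fin 2) R) :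
    X * X = X.trace • X - X.det • (1 : Matrix (Fin 2) (Fin 2) R) := by
  ext i j
  fin_cases i <;> fin_cases j <;>
    simp [Matrix.det_fin_two, Matrix.trace_fin_two, Matrix.mul_apply, Fin.sum_univ_two] <;> ring

theorem MatA_trace_pow {R : Type*} [CommRing R] (X : Matrix (Fin 2) (Fin 2) R) (b : ℕ) :
    (X ^ b).trace = powSum X.trace X.det b := by
  induction b using Nat.strong_induction_on with
  | _ b ih =>
    match b with
    | 0 => simp [powSum]
    | 1 => simp [powSum]
    | (b + 2) =>
      have h : X ^ (b + 2) = X.trace • X ^ (b + 1) - X.det • X ^ b := by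
        rw [pow_add, pow_two, MatA_cayley, mul_sub, Matrix.mul_smul, Matrix.mul_smul, mul_one,
          ← pow_succ]
      rw [h, Matrix.trace_sub, Matrix.trace_smul, Matrix.trace_smul, ih (b + 1) (by omega),
        ih b (by omega)]
      simp [powSum]

variable {R V : Type*} [CommRing R] [AddCommGroup V] [Module R V] [Module.Free R V]
  [Module.Finite R V]

omit [Module.Free R V] [Module.Finite R V] in
theorem MatA_nontrivial (hV : Module.finrank R V = 2) : Nontrivial R := by
  by_contra hcon
  rw [not_nontrivial_iff_subsingleton] at hcon
  have : Module.finrank R V = 1 :=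
    Module.finrank_eq_of_rank_eq (n := 1) (by rw [rank_subsingleton, Nat.cast_one])
  omega

theorem det_commutator (hV : Module.finrank R V = 2) (X Y : Module.End R V) :
    LinearMap.det (X * Y - Y * X) =
      fricke (LinearMap.trace R V X) (LinearMap.trace R V Y) (LinearMap.trace R V (X * Y))
        (LinearMap.det X) (LinearMap.det Y) := by
  have := MatA_nontrivial hV
  let b := Module.finBasisOfFinrankEq R V hV
  rw [← LinearMap.det_toMatrix b, ← LinearMap.det_toMatrix b X, ← LinearMap.det_toMatrix b Y,
    LinearMap.trace_eq_matrix_trace R b, LinearMap.trace_eq_matrix_trace R b,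
    LinearMap.trace_eq_matrix_trace R b, map_sub, LinearMap.toMatrix_mul, LinearMap.toMatrix_mul,
    det_commutator_matrix]

theorem trace_pow_eq_powSum (hV : Module.finrank R V = 2) (X : Module.End R V) (b : ℕ) :
    LinearMap.trace R V (X ^ b) = powSum (LinearMap.trace R V X) (LinearMap.det X) b := by
  have := MatA_nontrivial hV
  let e := Module.finBasisOfFinrankEq R V hV
  rw [← LinearMap.det_toMatrix e X, LinearMap.trace_eq_matrix_trace R e,
    LinearMap.trace_eq_matrix_trace R e, ← LinearMap.toMatrix_pow, MatA_trace_pow]

/-- trace and determinant from the characteristic polynomial in rank two. -/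
theorem trace_det_of_charpoly (hV : Module.finrank R V = 2) (X : Module.End R V) (t d : R)
    (h : LinearMap.charpoly X = Polynomial.X ^ 2 - Polynomial.C t * Polynomial.X + Polynomial.C d) :
    LinearMap.trace R V X = t ∧ LinearMap.det X = d := by
  have := MatA_nontrivial hV
  let e := Module.finBasisOfFinrankEq R V hV
  rw [← LinearMap.charpoly_toMatrix X e, Matrix.charpoly_fin_two] at h
  rw [← LinearMap.det_toMatrix e X, LinearMap.trace_eq_matrix_trace R e]
  constructor
  · have := congrArg (fun p => p.coeff 1) h
    simpa using this
  · have := congrArg (fun p => p.coeff 0) h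
    simpa only [Polynomial.coeff_add, Polynomial.coeff_sub, Polynomial.coeff_X_pow,
      Polynomial.coeff_C_mul, Polynomial.coeff_X_zero, Polynomial.coeff_C_zero, mul_zero,
      OfNat.zero_ne_ofNat, if_false, sub_zero, zero_add] using this

end Fermat.Agent.S31
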