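import Mathlib
import Fermat.Agent.S31.Defs

/-!
# S31, piece MB: if `det (XY - YX)` is a unit then `1, X, Y, XY` span `End V`
-/

set_option autoImplicit false

namespace Fermat.Agent.S31

/-! ### Cramer's rule for the system `tr Z, tr ZX, tr ZY, tr ZXY`, written out -/

theorem MatB_cramer1 {R : Type*} [CommRing R] (a b c d e f g h z1 z2 z3 z4 : R) :
    (((a*e+b*g) - (e*a+f*c)) * ((c*f+d*h) - (g*b+h*d)) - ((a*f+b*h) - (e*b+f*d)) * ((c*e+d*g) - (g*a+h*c))) * z1 =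
      -((c*f*(c*f+d*h) + b*h*(c*e+d*g) + d*g*(a*f+b*h) - c*h*(a*f+b*h) - b*g*(c*f+d*h) - d*f*(c*e+d*g)) * (z1 + z4) +
        -(0*f*(c*f+d*h) + 0*h*(c*e+d*g) + 1*g*(a*f+b*h) - 0*h*(a*f+b*h) - 0*g*(c*f+d*h) - 1*f*(c*e+d*g)) * (z1*a + z2*c + z3*b + z4*d) +
        (0*b*(c*f+d*h) + 0*d*(c*e+d*g) + 1*c*(a*f+b*h) - 0*d*(a*f+b*h) - 0*c*(c*f+d*h) - 1*b*(c*e+d*g)) * (z1*e + z2*g + z3*f + z4*h) +
        -(0*b*h + 0*d*g + 1*c*f - 0*d*f - 0*c*h - 1*b*g) * (z1*(a*e+b*g) + z2*(c*e+d*g) + z3*(a*f+b*h) + z4*(c*f+d*h))) := by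
  ring

theorem MatB_cramer2 {R : Type*} [CommRing R] (a b c d e f g h z1 z2 z3 z4 : R) :
    (((a*e+b*g) - (e*a+f*c)) * ((c*f+d*h) - (g*b+h*d)) - ((a*f+b*h) - (e*b+f*d)) * ((c*e+d*g) - (g*a+h*c))) * z2 =
      -(-(a*f*(c*f+d*h) + b*h*(a*e+b*g) + d*e*(a*f+b*h) - a*h*(a*f+b*h) - b*e*(c*f+d*h) - d*f*(a*e+b*g)) * (z1 + z4) +
        (1*f*(c*f+d*h) + 0*h*(a*e+b*g) + 1*e*(a*f+b*h) - 1*h*(a*f+b*h) - 0*e*(c*f+d*h) - 1*f*(a*e+b*g)) * (z1*a + z2*c + z3*b + z4*d) +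
        -(1*b*(c*f+d*h) + 0*d*(a*e+b*g) + 1*a*(a*f+b*h) - 1*d*(a*f+b*h) - 0*a*(c*f+d*h) - 1*b*(a*e+b*g)) * (z1*e + z2*g + z3*f + z4*h) +
        (1*b*h + 0*d*e + 1*a*f - 1*d*f - 0*a*h - 1*b*e) * (z1*(a*e+b*g) + z2*(c*e+d*g) + z3*(a*f+b*h) + z4*(c*f+d*h))) := by
  ring

theorem MatB_cramer3 {R : Type*} [CommRing R] (a b c d e f g h z1 z2 z3 z4 : R) :
    (((a*e+b*g) - (e*a+f*c)) * ((c*f+d*h) - (g*b+h*d)) - ((a*f+b*h) - (e*b+f*d)) * ((c*e+d*g) - (g*a+h*c))) * z3 =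
      -((a*g*(c*f+d*h) + c*h*(a*e+b*g) + d*e*(c*e+d*g) - a*h*(c*e+d*g) - c*e*(c*f+d*h) - d*g*(a*e+b*g)) * (z1 + z4) +
        -(1*g*(c*f+d*h) + 0*h*(a*e+b*g) + 1*e*(c*e+d*g) - 1*h*(c*e+d*g) - 0*e*(c*f+d*h) - 1*g*(a*e+b*g)) * (z1*a + z2*c + z3*b + z4*d) +
        (1*c*(c*f+d*h) + 0*d*(a*e+b*g) + 1*a*(c*e+d*g) - 1*d*(c*e+d*g) - 0*a*(c*f+d*h) - 1*c*(a*e+b*g)) * (z1*e + z2*g + z3*f + z4*h) +
        -(1*c*h + 0*d*e + 1*a*g - 1*d*g - 0*a*h - 1*c*e) * (z1*(a*e+b*g) + z2*(c*e+d*g) + z3*(a*f+b*h) + z4*(c*f+d*h))) := by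
  ring

theorem MatB_cramer4 {R : Type*} [CommRing R] (a b c d e f g h z1 z2 z3 z4 : R) :
    (((a*e+b*g) - (e*a+f*c)) * ((c*f+d*h) - (g*b+h*d)) - ((a*f+b*h) - (e*b+f*d)) * ((c*e+d*g) - (g*a+h*c))) * z4 =
      -(-(a*g*(a*f+b*h) + c*f*(a*e+b*g) + b*e*(c*e+d*g) - a*f*(c*e+d*g) - c*e*(a*f+b*h) - b*g*(a*e+b*g)) * (z1 + z4) +
        (1*g*(a*f+b*h) + 0*f*(a*e+b*g) + 0*e*(c*e+d*g) - 1*f*(c*e+d*g) - 0*e*(a*f+b*h) - 0*g*(a*e+b*g)) * (z1*a + z2*c + z3*b + z4*d) +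
        -(1*c*(a*f+b*h) + 0*b*(a*e+b*g) + 0*a*(c*e+d*g) - 1*b*(c*e+d*g) - 0*a*(a*f+b*h) - 0*c*(a*e+b*g)) * (z1*e + z2*g + z3*f + z4*h) +
        (1*c*f + 0*b*e + 0*a*g - 1*b*g - 0*a*f - 0*c*e) * (z1*(a*e+b*g) + z2*(c*e+d*g) + z3*(a*f+b*h) + z4*(c*f+d*h))) := by
  ring

theorem MatB_mem {R : Type*} [CommRing R] (I : Ideal R) (a b c d e f g h z1 z2 z3 z4 : R)
    (hu : IsUnit (((a*e+b*g) - (e*a+f*c)) * ((c*f+d*h) - (g*b+h*d)) - ((a*f+b*h) - (e*b+f*d)) * ((c*e+d*g) - (g*a+h*c))))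
    (h0 : (z1 + z4) ∈ I) (h1 : (z1*a + z2*c + z3*b + z4*d) ∈ I)
    (h2 : (z1*e + z2*g + z3*f + z4*h) ∈ I)
    (h3 : (z1*(a*e+b*g) + z2*(c*e+d*g) + z3*(a*f+b*h) + z4*(c*f+d*h)) ∈ I) :
    z1 ∈ I ∧ z2 ∈ I ∧ z3 ∈ I ∧ z4 ∈ I := by
  refine ⟨?_, ?_, ?_, ?_⟩
  · rw [← Ideal.unit_mul_mem_iff_mem I hu, MatB_cramer1]
    exact I.neg_mem (I.add_mem (I.add_mem (I.add_mem (I.mul_mem_left _ h0) (I.mul_mem_left _ h1))
      (I.mul_mem_left _ h2)) (I.mul_mem_left _ h3))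
  · rw [← Ideal.unit_mul_mem_iff_mem I hu, MatB_cramer2]
    exact I.neg_mem (I.add_mem (I.add_mem (I.add_mem (I.mul_mem_left _ h0) (I.mul_mem_left _ h1))
      (I.mul_mem_left _ h2)) (I.mul_mem_left _ h3))
  · rw [← Ideal.unit_mul_mem_iff_mem I hu, MatB_cramer3]
    exact I.neg_mem (I.add_mem (I.add_mem (I.add_mem (I.mul_mem_left _ h0) (I.mul_mem_left _ h1))
      (I.mul_mem_left _ h2)) (I.mul_mem_left _ h3))
  · rw [← Ideal.unit_mul_mem_iff_mem I hu, MatB_cramer4]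
    exact I.neg_mem (I.add_mem (I.add_mem (I.add_mem (I.mul_mem_left _ h0) (I.mul_mem_left _ h1))
      (I.mul_mem_left _ h2)) (I.mul_mem_left _ h3))

/-- the matrix version. -/
theorem MatB_matrix {R : Type*} [CommRing R] (I : Ideal R) (X Y Z : Matrix (Fin 2) (Fin 2) R)
    (hu : IsUnit (X * Y - Y * X).det) (h1 : Z.trace ∈ I) (hX : (Z * X).trace ∈ I)
    (hY : (Z * Y).trace ∈ I) (hXY : (Z * (X * Y)).trace ∈ I) : ∀ i j, Z i j ∈ I := by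
  have key := MatB_mem I (X 0 0) (X 0 1) (X 1 0) (X 1 1) (Y 0 0) (Y 0 1) (Y 1 0) (Y 1 1)
    (Z 0 0) (Z 0 1) (Z 1 0) (Z 1 1)
    (by
      convert hu using 1
      simp only [Matrix.det_fin_two, Matrix.sub_apply, Matrix.mul_apply, Fin.sum_univ_two])
    (by
      convert h1 using 1
      simp only [Matrix.trace_fin_two])
    (by
      convert hX using 1
      simp only [Matrix.trace_fin_two, Matrix.mul_apply, Fin.sum_univ_two]
      ring)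
    (by
      convert hY using 1
      simp only [Matrix.trace_fin_two, Matrix.mul_apply, Fin.sum_univ_two]
      ring)
    (by
      convert hXY using 1
      simp only [Matrix.trace_fin_two, Matrix.mul_apply, Fin.sum_univ_two]
      ring)
  obtain ⟨k1, k2, k3, k4⟩ := key
  intro i j
  fin_cases i <;> fin_cases j
  · exact k1
  · exact k2
  · exact k3
  · exact k4

variable {R V : Type*} [CommRing R] [AddCommGroup V] [Module R V] [Module.Free R V]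
  [Module.Finite R V]

/-- if `det (XY - YX)` is a unit then `1, X, Y, XY` span `End V`, and the trace form is perfect. -/
theorem mem_smul_top_of_trace_mem (hV : Module.finrank R V = 2) (I : Ideal R)
    (X Y Z : Module.End R V) (hu : IsUnit (LinearMap.det (X * Y - Y * X)))
    (h1 : LinearMap.trace R V Z ∈ I) (hX : LinearMap.trace R V (Z * X) ∈ I)
    (hY : LinearMap.trace R V (Z * Y) ∈ I) (hXY : LinearMap.trace R V (Z * (X * Y)) ∈ I) :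
    ∀ v : V, Z v ∈ I • (⊤ : Submodule R V) := by
  classical
  rcases subsingleton_or_nontrivial R with hR | hR
  · intro v
    have : Subsingleton V := Module.subsingleton R V
    rw [Subsingleton.elim (Z v) 0]
    exact Submodule.zero_mem _
  let b : Module.Basis (Fin 2) R V := Module.finBasisOfFinrankEq R V hV
  have hent := MatB_matrix I (LinearMap.toMatrix b b X) (LinearMap.toMatrix b b Y)
    (LinearMap.toMatrix b b Z)
    (by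
      rw [← LinearMap.toMatrix_mul, ← LinearMap.toMatrix_mul, ← map_sub, LinearMap.det_toMatrix]
      exact hu)
    (by rw [← LinearMap.trace_eq_matrix_trace]; exact h1)
    (by rw [← LinearMap.toMatrix_mul, ← LinearMap.trace_eq_matrix_trace]; exact hX)
    (by rw [← LinearMap.toMatrix_mul, ← LinearMap.trace_eq_matrix_trace]; exact hY)
    (by
      rw [← LinearMap.toMatrix_mul, ← LinearMap.toMatrix_mul, ← LinearMap.trace_eq_matrix_trace]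
      exact hXY)
  intro v
  rw [← b.sum_repr (Z v)]
  refine Submodule.sum_mem _ fun i _ => Submodule.smul_mem_smul ?_ Submodule.mem_top
  rw [← LinearMap.toMatrix_mulVec_repr b b Z v]
  simp only [Matrix.mulVec, dotProduct]
  exact I.sum_mem fun j _ => I.mul_mem_right _ (hent i j)

end Fermat.Agent.S31
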