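import Mathlib

/-!
# S31, piece I: an absolutely irreducible two-dimensional representation has a pair of elements
with invertible commutator `XY - YX`
-/

set_option autoImplicit false

namespace Fermat.Agent.S31

section
variable {Ω G V : Type*} [Field Ω] [IsAlgClosed Ω] [Group G] [AddCommGroup V] [Module Ω V]

omit [IsAlgClosed Ω] in
/-- in a plane, two independent vectors span. -/
theorem AbsIrrA_decomp (hV : Module.finrank Ω V = 2) (v w : V) (hv : v ≠ 0)
    (hw : ∀ a : Ω, a • v ≠ w) (u : V) : ∃ s t : Ω, u = s • v + t • w := by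
  have hli : LinearIndependent Ω ![v, w] := (LinearIndependent.pair_iff' hv).2 hw
  have hspan : Submodule.span Ω (Set.range ![v, w]) = ⊤ :=
    hli.span_eq_top_of_card_eq_finrank (by simp [hV])
  have hu : u ∈ Submodule.span Ω (Set.range ![v, w]) := by rw [hspan]; trivial
  have hr : Set.range ![v, w] = {v, w} := by simp [Set.pair_comm]
  rw [hr, Submodule.mem_span_pair] at hu
  obtain ⟨s, t, h⟩ := hu
  exact ⟨s, t, h.symm⟩

/-- every endomorphism of a plane over an algebraically closed field has an eigenvector. -/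
theorem AbsIrrA_exists_eigenvector (hV : Module.finrank Ω V = 2) (X : Module.End Ω V) :
    ∃ v : V, v ≠ 0 ∧ ∃ a : Ω, X v = a • v := by
  have : FiniteDimensional Ω V := Module.finite_of_finrank_pos (by omega)
  have : Nontrivial V := Module.nontrivial_of_finrank_pos (R := Ω) (by omega)
  obtain ⟨a, ha⟩ := Module.End.exists_eigenvalue X
  obtain ⟨v, hv⟩ := ha.exists_hasEigenvector
  exact ⟨v, hv.2, a, hv.apply_eq_smul⟩

/-- two endomorphisms of a plane over an algebraically closed field with `det (XY - YX) = 0`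
have a common eigenvector. -/
theorem exists_common_eigenvector (hV : Module.finrank Ω V = 2) (X Y : Module.End Ω V)
    (h : LinearMap.det (X * Y - Y * X) = 0) :
    ∃ v : V, v ≠ 0 ∧ (∃ a : Ω, X v = a • v) ∧ (∃ b : Ω, Y v = b • v) := by
  have : FiniteDimensional Ω V := Module.finite_of_finrank_pos (by omega)
  have hker := LinearMap.bot_lt_ker_of_det_eq_zero h
  obtain ⟨v, hvker, hv0⟩ := Submodule.exists_mem_ne_zero_of_ne_bot hker.ne'
  have hcomm : X (Y v) = Y (X v) := by
    have : (X * Y - Y * X) v = 0 := hvker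
    simpa [sub_eq_zero] using this
  by_cases hX : ∃ a : Ω, a • v = X v
  · obtain ⟨a, ha⟩ := hX
    by_cases hY : ∃ b : Ω, b • v = Y v
    · obtain ⟨b, hb⟩ := hY
      exact ⟨v, hv0, ⟨a, ha.symm⟩, ⟨b, hb.symm⟩⟩
    · push Not at hY
      -- `X` is the scalar `a`
      have hXs : ∀ u : V, X u = a • u := by
        intro u
        obtain ⟨s, t, rfl⟩ := AbsIrrA_decomp hV v (Y v) hv0 hY u
        rw [map_add, map_smul, map_smul, hcomm, ← ha, map_smul, smul_add, smul_comm a s,
          smul_comm a t]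
      obtain ⟨w, hw0, b, hb⟩ := AbsIrrA_exists_eigenvector hV Y
      exact ⟨w, hw0, ⟨a, hXs w⟩, ⟨b, hb⟩⟩
  · push Not at hX
    obtain ⟨c, e, hce⟩ := AbsIrrA_decomp hV v (X v) hv0 hX (Y v)
    have hYs : ∀ u : V, Y u = c • u + e • X u := by
      intro u
      obtain ⟨s, t, rfl⟩ := AbsIrrA_decomp hV v (X v) hv0 hX u
      have h2 : Y (X v) = c • X v + e • X (X v) := by
        rw [← hcomm, hce, map_add, map_smul, map_smul]
      simp only [map_add, map_smul, h2, hce, smul_add, smul_smul]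
      module
    obtain ⟨w, hw0, a, ha⟩ := AbsIrrA_exists_eigenvector hV X
    refine ⟨w, hw0, ⟨a, ha⟩, ⟨c + e * a, ?_⟩⟩
    rw [hYs w, ha, smul_smul, add_smul]

omit [IsAlgClosed Ω] in
theorem AbsIrrA_eig_mul (ρ : G →* Module.End Ω V) (v : V) {g h : G}
    (hg : ∃ a : Ω, ρ g v = a • v) (hh : ∃ a : Ω, ρ h v = a • v) :
    ∃ a : Ω, ρ (g * h) v = a • v := by
  obtain ⟨a, ha⟩ := hg
  obtain ⟨b, hb⟩ := hh
  refine ⟨b * a, ?_⟩
  rw [map_mul, Module.End.mul_apply, hb, map_smul, ha, smul_smul]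

omit [IsAlgClosed Ω] in
theorem AbsIrrA_eig_inv (ρ : G →* Module.End Ω V) (v : V) {g : G}
    (hg : ∃ a : Ω, ρ g v = a • v) : ∃ a : Ω, ρ g⁻¹ v = a • v := by
  obtain ⟨a, ha⟩ := hg
  have h1 : v = a • ρ g⁻¹ v := by
    have : ρ g⁻¹ (ρ g v) = v := by
      rw [← Module.End.mul_apply, ← map_mul, inv_mul_cancel, map_one, Module.End.one_apply]
    rw [ha, map_smul] at this
    exact this.symm
  refine ⟨a⁻¹, ?_⟩
  by_cases ha0 : a = 0
  · have hv : v = 0 := by rw [h1, ha0, zero_smul]
    rw [hv, map_zero, smul_zero]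
  · conv_rhs => rw [h1]
    rw [smul_smul, inv_mul_cancel₀ ha0, one_smul]

omit [IsAlgClosed Ω] in
theorem AbsIrrA_eig_of_smul (A : Module.End Ω V) (v : V) {s : Ω} (hs : s ≠ 0)
    (h : ∃ a : Ω, A (s • v) = a • (s • v)) : ∃ a : Ω, A v = a • v := by
  obtain ⟨a, ha⟩ := h
  refine ⟨a, ?_⟩
  rw [map_smul, smul_comm a s] at ha
  exact smul_right_injective V hs ha

/-- irreducible in dimension two over an algebraically closed field: some commutator
`XY - YX` is invertible. -/
theorem exists_det_commutator_ne_zero (hV : Module.finrank Ω V = 2) (ρ : G →* Module.End Ω V)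
    (hirr : ∀ U : Submodule Ω V, (∀ g : G, ∀ x ∈ U, ρ g x ∈ U) → U = ⊥ ∨ U = ⊤) :
    ∃ g h : G, LinearMap.det (ρ g * ρ h - ρ h * ρ g) ≠ 0 := by
  by_contra hcon
  push Not at hcon
  have : FiniteDimensional Ω V := Module.finite_of_finrank_pos (by omega)
  have : Nontrivial V := Module.nontrivial_of_finrank_pos (R := Ω) (by omega)
  have key : ∀ g h : G, ∃ v : V, v ≠ 0 ∧ (∃ a : Ω, ρ g v = a • v) ∧ (∃ b : Ω, ρ h v = b • v) :=
    fun g h => exists_common_eigenvector hV _ _ (hcon g h)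
  -- no line is stable
  have line : ∀ v : V, v ≠ 0 → ∃ g : G, ¬ ∃ a : Ω, ρ g v = a • v := by
    intro v hv
    by_contra hst
    push Not at hst
    have hstab : ∀ g : G, ∀ x ∈ Submodule.span Ω {v}, ρ g x ∈ Submodule.span Ω {v} := by
      intro g x hx
      obtain ⟨s, rfl⟩ := Submodule.mem_span_singleton.1 hx
      obtain ⟨a, ha⟩ := hst g
      rw [map_smul, ha, smul_smul]
      exact Submodule.mem_span_singleton.2 ⟨_, rfl⟩
    rcases hirr _ hstab with hU | hU
    · exact hv (Submodule.span_singleton_eq_bot.1 hU)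
    · have h1 : Module.finrank Ω (Submodule.span Ω {v}) = 1 := finrank_span_singleton hv
      rw [hU, finrank_top, hV] at h1
      omega
  obtain ⟨v0, hv0⟩ := exists_ne (0 : V)
  obtain ⟨g0, hg0⟩ := line v0 hv0
  obtain ⟨v1, hv1, ⟨a1, ha1⟩, -⟩ := key g0 g0
  obtain ⟨h1, hh1⟩ := line v1 hv1
  obtain ⟨v2, hv2, ⟨a2, ha2⟩, hb2⟩ := key g0 h1
  have hind : ∀ a : Ω, a • v1 ≠ v2 := by
    intro a ha
    have ha0 : a ≠ 0 := by
      rintro rfl
      exact hv2 (by rw [← ha, zero_smul])
    exact hh1 (AbsIrrA_eig_of_smul (ρ h1) v1 ha0 (by rw [ha]; exact hb2))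
  have hli : LinearIndependent Ω ![v1, v2] := (LinearIndependent.pair_iff' hv1).2 hind
  have hne : a1 ≠ a2 := by
    intro h12
    apply hg0
    obtain ⟨s, t, rfl⟩ := AbsIrrA_decomp hV v1 v2 hv1 hind v0
    refine ⟨a1, ?_⟩
    rw [map_add, map_smul, map_smul, ha1, ha2, ← h12, smul_add, smul_comm a1 s, smul_comm a1 t]
  -- dichotomy
  have dich : ∀ h : G, (∃ a : Ω, ρ h v1 = a • v1) ∨ (∃ a : Ω, ρ h v2 = a • v2) := by
    intro h
    obtain ⟨w, hw0, ⟨a, ha⟩, hb⟩ := key g0 h
    obtain ⟨s, t, rfl⟩ := AbsIrrA_decomp hV v1 v2 hv1 hind w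
    have hrel : (s * (a1 - a)) • v1 + (t * (a2 - a)) • v2 = 0 := by
      rw [map_add, map_smul, map_smul, ha1, ha2] at ha
      have : s • a1 • v1 + t • a2 • v2 - a • (s • v1 + t • v2) = 0 := sub_eq_zero.2 ha
      rw [← this]
      module
    obtain ⟨hs, ht⟩ := LinearIndependent.pair_iff.1 hli _ _ hrel
    by_cases hs0 : s = 0
    · right
      have ht0 : t ≠ 0 := by
        rintro rfl
        exact hw0 (by rw [hs0, zero_smul, zero_smul, add_zero])
      refine AbsIrrA_eig_of_smul (ρ h) v2 ht0 ?_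
      simpa [hs0] using hb
    · left
      have haa : a1 = a := by
        rcases mul_eq_zero.1 hs with h' | h'
        · exact absurd h' hs0
        · exact sub_eq_zero.1 h'
      have ht0 : t = 0 := by
        rcases mul_eq_zero.1 ht with h' | h'
        · exact h'
        · exact absurd (haa.trans (sub_eq_zero.1 h').symm) hne
      refine AbsIrrA_eig_of_smul (ρ h) v1 hs0 ?_
      simpa [ht0] using hb
  obtain ⟨h2, hh2⟩ := line v2 hv2
  have h2v1 : ∃ a : Ω, ρ h2 v1 = a • v1 := (dich h2).resolve_right hh2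
  rcases dich (h1 * h2) with h12 | h12
  · apply hh1
    have := AbsIrrA_eig_mul ρ v1 h12 (AbsIrrA_eig_inv ρ v1 h2v1)
    simpa using this
  · apply hh2
    have := AbsIrrA_eig_mul ρ v2 (AbsIrrA_eig_inv ρ v2 hb2) h12
    simpa using this

end

end Fermat.Agent.S31
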