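import Mathlib
import Fermat.Prelude.Def_GaloisRep_Adic
import Fermat.Agent.S31.AbsIrrA

/-!
# S31, piece IB: invertible commutator for a `GaloisRepAdic` with absolutely irreducible reduction
-/

set_option autoImplicit false

namespace Fermat.Agent.S31

/-- the version for a `GaloisRepAdic` with absolutely irreducible residual representation. -/
theorem exists_isUnit_det_commutator {T : Type} [CommRing T] [IsLocalRing T]
    (ρ : GaloisRepAdic T) (h : ρ.residual.IsAbsolutelyIrreducible) :
    ∃ g h : AlgebraicClosure ℚ ≃ₐ[ℚ] AlgebraicClosure ℚ,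
      IsUnit (LinearMap.det (ρ.ρ g * ρ.ρ h - ρ.ρ h * ρ.ρ g)) := by
  obtain ⟨g, h', hne⟩ := exists_det_commutator_ne_zero
    (ρ.residual.baseChange (AlgebraicClosure (IsLocalRing.ResidueField T))).finrank_eq
    (ρ.residual.baseChange (AlgebraicClosure (IsLocalRing.ResidueField T))).ρ h
  refine ⟨g, h', ?_⟩
  have e1 : (ρ.residual.baseChange (AlgebraicClosure (IsLocalRing.ResidueField T))).ρ g *
      (ρ.residual.baseChange (AlgebraicClosure (IsLocalRing.ResidueField T))).ρ h' -
      (ρ.residual.baseChange (AlgebraicClosure (IsLocalRing.ResidueField T))).ρ h' *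
      (ρ.residual.baseChange (AlgebraicClosure (IsLocalRing.ResidueField T))).ρ g =
      ((ρ.ρ g * ρ.ρ h' - ρ.ρ h' * ρ.ρ g).baseChange (IsLocalRing.ResidueField T)).baseChange
        (AlgebraicClosure (IsLocalRing.ResidueField T)) := by
    rw [LinearMap.baseChange_sub, LinearMap.baseChange_sub, LinearMap.baseChange_mul,
      LinearMap.baseChange_mul, LinearMap.baseChange_mul, LinearMap.baseChange_mul]
    rfl
  rw [e1] at hne
  have hne' : LinearMap.det (((ρ.ρ g * ρ.ρ h' - ρ.ρ h' * ρ.ρ g).baseChange
      (IsLocalRing.ResidueField T)).baseChange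
        (AlgebraicClosure (IsLocalRing.ResidueField T))) ≠ 0 := hne
  rw [LinearMap.det_baseChange, LinearMap.det_baseChange] at hne'
  by_contra hu
  apply hne'
  have : algebraMap T (IsLocalRing.ResidueField T)
      (LinearMap.det (ρ.ρ g * ρ.ρ h' - ρ.ρ h' * ρ.ρ g)) = 0 := by
    rw [IsLocalRing.ResidueField.algebraMap_eq, IsLocalRing.residue_eq_zero_iff]
    exact hu
  rw [this, map_zero]

end Fermat.Agent.S31
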