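import Mathlib
import Fermat.Agent.S31.MatA
import Fermat.Agent.S31.MatB
import Fermat.Agent.S31.CommId

/-!
# S31: the core lemma (transfer from a faithful Hecke-Galois module to a rank two representation)

`W` is a module over a commutative ring `A` with an action `r` of a group `G` satisfying
Cayley-Hamilton type relations `g² - t(g) g + d(g) = 0`; `ρ` is a rank two representation over `B`
whose traces and determinants are `π (t g)`, `π (d g)` modulo an ideal `I`; `W` is faithful
modulo `I`.  If some commutator `ρ g ρ h - ρ h ρ g` is invertible, then every element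
`∑ aᵢ gᵢ` of the group algebra killing `W` kills `V / I V` (`core_general`); in particular every
`g₀` acting trivially on `W` acts trivially on `V / I V` (`core`).
-/

set_option autoImplicit false

namespace Fermat.Agent.S31

variable {A B G W V : Type*} [CommRing A] [CommRing B] [Group G]
  [AddCommGroup W] [Module A W] [AddCommGroup V] [Module B V] [Module.Free B V] [Module.Finite B V]

theorem core_inv_apply (r : G →* Module.End A W) (a : G) (w : W) : r a⁻¹ (r a w) = w := by
  have : r a⁻¹ * r a = 1 := by rw [← map_mul, inv_mul_cancel, map_one]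
  exact LinearMap.congr_fun this w

theorem core_apply_inv (r : G →* Module.End A W) (a : G) (w : W) : r a (r a⁻¹ w) = w := by
  have : r a * r a⁻¹ = 1 := by rw [← map_mul, mul_inv_cancel, map_one]
  exact LinearMap.congr_fun this w

/-- the heart of the argument: a family of scalars `c a` with `c a • a = c₀ d(a)` on `W` dies
modulo `I`. -/
theorem core_aux (hV : Module.finrank B V = 2) (r : G →* Module.End A W)
    (ρ : G →* Module.End B V) (π : A →+* B) (I : Ideal B) (t d : G → A)
    (H1 : ∀ (g : G) (w : W), r g (r g w) - t g • r g w + d g • w = 0)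
    (H1' : ∀ (g h : G) (w : W), d (g * h) • w = (d g * d h) • w)
    (H2t : ∀ g, LinearMap.trace B V (ρ g) - π (t g) ∈ I)
    (H2d : ∀ g, LinearMap.det (ρ g) - π (d g) ∈ I)
    (g h : G) (hu : IsUnit (LinearMap.det (ρ g * ρ h - ρ h * ρ g)))
    (H4 : ∀ a : A, (∀ w : W, a • w = 0) → π a ∈ I)
    (c : G → A) (c₀ : A) (key1 : ∀ (a : G) (w : W), c a • r a w = (c₀ * d a) • w) :
    ∀ a : G, π (c a) ∈ I := by
  have hinv := core_inv_apply r
  have hinv' := core_apply_inv r
  have key2 : ∀ (a : G) (w : W), (c₀ * d a⁻¹) • r a w = c a⁻¹ • w := by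
    intro a w
    have := key1 a⁻¹ (r a w)
    rw [hinv] at this
    exact this.symm
  -- the Fricke polynomial kills `c₀ d(g⁻¹) W`
  have hF := fricke_mul_smul_eq_zero (r g) (r h) ((Group.isUnit g).map r) ((Group.isUnit h).map r)
    (c₀ * d g⁻¹)
    (by
      intro w
      rw [key2 g (r h w), ← map_smul (r h) _ (r g w), key2 g w, map_smul])
    (t g) (t h) (t (g * h)) (d g) (d h) (H1 g) (H1 h)
    (by
      intro w
      have := H1 (g * h) w
      rw [map_mul, H1'] at this
      exact this)
  set F : A := fricke (t g) (t h) (t (g * h)) (d g) (d h) with hFdef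
  let mk := Ideal.Quotient.mk I
  have hmk : ∀ x y : B, x - y ∈ I → mk x = mk y := fun x y hxy =>
    (Ideal.Quotient.eq).mpr hxy
  -- `π F` is a unit modulo `I`
  have hFu : IsUnit (mk (π F)) := by
    have h1 : mk (π F) = mk (LinearMap.det (ρ g * ρ h - ρ h * ρ g)) := by
      rw [det_commutator hV, hFdef, map_fricke, map_fricke, map_fricke, ← map_mul ρ,
        hmk _ _ (H2t g), hmk _ _ (H2t h), hmk _ _ (H2t (g * h)), hmk _ _ (H2d g),
        hmk _ _ (H2d h)]
    rw [h1]
    exact hu.map mk
  have hdu : IsUnit (mk (π (d g⁻¹))) := by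
    rw [← hmk _ _ (H2d g⁻¹)]
    refine IsUnit.map mk ?_
    have : LinearMap.det (ρ g⁻¹) * LinearMap.det (ρ g) = 1 := by
      rw [← map_mul, ← map_mul, inv_mul_cancel, map_one, map_one]
    exact IsUnit.of_mul_eq_one _ this
  -- cancellation
  have hcancel : ∀ a : A, (∀ w : W, (F * d g⁻¹ * a) • w = 0) → π a ∈ I := by
    intro a ha
    have h1 := H4 _ ha
    rw [← Ideal.Quotient.eq_zero_iff_mem] at h1 ⊢
    rw [map_mul, map_mul, map_mul, map_mul] at h1
    exact (hFu.mul hdu).mul_right_eq_zero.mp h1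
  intro a
  refine hcancel _ fun w => ?_
  have h1 := key1 a (r a⁻¹ w)
  rw [hinv'] at h1
  rw [mul_smul, h1]
  have h2 := hF (d a • r a⁻¹ w)
  rw [← h2]
  module

/-- **Transfer lemma.**  An element `∑ x(g) g` of the group algebra `A[G]` which kills `W`
kills `V / I V`. -/
theorem core_general (hV : Module.finrank B V = 2) (r : G →* Module.End A W)
    (ρ : G →* Module.End B V) (π : A →+* B) (I : Ideal B) (t d : G → A)
    (H1 : ∀ (g : G) (w : W), r g (r g w) - t g • r g w + d g • w = 0)
    (H1' : ∀ (g h : G) (w : W), d (g * h) • w = (d g * d h) • w)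
    (H2t : ∀ g, LinearMap.trace B V (ρ g) - π (t g) ∈ I)
    (H2d : ∀ g, LinearMap.det (ρ g) - π (d g) ∈ I)
    (H3 : ∃ g h, IsUnit (LinearMap.det (ρ g * ρ h - ρ h * ρ g)))
    (H4 : ∀ a : A, (∀ w : W, a • w = 0) → π a ∈ I)
    (s : Finset G) (x : G → A) (hx : ∀ w : W, ∑ g ∈ s, x g • r g w = 0) :
    ∀ v : V, ∑ g ∈ s, π (x g) • ρ g v ∈ I • (⊤ : Submodule B V) := by
  obtain ⟨g, h, hu⟩ := H3
  have hinv := core_inv_apply r
  have hinv' := core_apply_inv r
  -- `t(b) z = b z + d(b) b⁻¹ z`
  have hCH : ∀ (b : G) (z : W), t b • z = r b z + d b • r b⁻¹ z := by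
    intro b z
    have := H1 b (r b⁻¹ z)
    rw [hinv'] at this
    have h2 : t b • z = r b z + d b • r b⁻¹ z - (r b z - t b • z + d b • r b⁻¹ z) := by module
    rw [h2, this, sub_zero]
  -- the adjoint of `x`
  let Xs : W → W := fun z => ∑ b ∈ s, (x b * d b) • r b⁻¹ z
  have hc : ∀ (a : G) (z : W), (∑ b ∈ s, x b * t (b * a)) • r a z = d a • Xs z := by
    intro a z
    have h1 : ∀ z' : W, (∑ b ∈ s, x b * t (b * a)) • z' = d a • r a⁻¹ (Xs z') := by
      intro z'
      rw [Finset.sum_smul]
      have h2 : ∀ b ∈ s, (x b * t (b * a)) • z' =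
          x b • r b (r a z') + d a • r a⁻¹ ((x b * d b) • r b⁻¹ z') := by
        intro b _
        rw [mul_smul, hCH (b * a) z', H1', map_mul, mul_inv_rev, map_mul, Module.End.mul_apply,
          Module.End.mul_apply, map_smul]
        module
      rw [Finset.sum_congr rfl h2, Finset.sum_add_distrib, hx (r a z'), zero_add,
        ← Finset.smul_sum, ← map_sum]
    have h3 := congrArg (r a) (h1 z)
    rw [map_smul, map_smul, hinv'] at h3
    exact h3
  have key1 : ∀ (a : G) (w : W), (∑ b ∈ s, x b * t (b * a)) • r a w =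
      ((∑ b ∈ s, x b * t (b * 1)) * d a) • w := by
    intro a w
    rw [hc a w, mul_comm, mul_smul]
    have h1 := hc 1 w
    rw [map_one, Module.End.one_apply] at h1
    rw [h1, ← mul_smul, mul_comm, ← H1', one_mul]
  have hcI := core_aux hV r ρ π I t d H1 H1' H2t H2d g h hu H4
    (fun a => ∑ b ∈ s, x b * t (b * a)) _ key1
  have htr : ∀ a : G, LinearMap.trace B V ((∑ b ∈ s, π (x b) • ρ b) * ρ a) ∈ I := by
    intro a
    rw [Finset.sum_mul, map_sum]
    have h1 := hcI a
    rw [map_sum] at h1
    have h2 : ∑ b ∈ s, LinearMap.trace B V (π (x b) • ρ b * ρ a) =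
        ∑ b ∈ s, π (x b) * (LinearMap.trace B V (ρ (b * a)) - π (t (b * a))) +
          ∑ b ∈ s, π (x b * t (b * a)) := by
      rw [← Finset.sum_add_distrib]
      refine Finset.sum_congr rfl fun b _ => ?_
      rw [smul_mul_assoc, map_smul, ← map_mul ρ, map_mul π, smul_eq_mul]
      ring
    rw [h2]
    exact I.add_mem (I.sum_mem fun b _ => I.mul_mem_left _ (H2t _)) h1
  intro v
  have := mem_smul_top_of_trace_mem hV I (ρ g) (ρ h) (∑ b ∈ s, π (x b) • ρ b) hu
    (by have := htr 1; rwa [map_one, mul_one] at this) (htr g) (htr h)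
    (by have := htr (g * h); rwa [map_mul ρ] at this) v
  simpa [LinearMap.sum_apply] using this

/-- an element `g₀` acting trivially on `W` acts trivially on `V / I V`. -/
theorem core (hV : Module.finrank B V = 2) (r : G →* Module.End A W) (ρ : G →* Module.End B V)
    (π : A →+* B) (I : Ideal B) (t d : G → A)
    (H1 : ∀ (g : G) (w : W), r g (r g w) - t g • r g w + d g • w = 0)
    (H1' : ∀ (g h : G) (w : W), d (g * h) • w = (d g * d h) • w)
    (H2t : ∀ g, LinearMap.trace B V (ρ g) - π (t g) ∈ I)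
    (H2d : ∀ g, LinearMap.det (ρ g) - π (d g) ∈ I)
    (H3 : ∃ g h, IsUnit (LinearMap.det (ρ g * ρ h - ρ h * ρ g)))
    (H4 : ∀ a : A, (∀ w : W, a • w = 0) → π a ∈ I)
    (g₀ : G) (hg₀ : r g₀ = 1) : ∀ v : V, ρ g₀ v - v ∈ I • (⊤ : Submodule B V) := by
  classical
  intro v
  by_cases h1 : g₀ = 1
  · subst h1
    simp
  have := core_general hV r ρ π I t d H1 H1' H2t H2d H3 H4 {g₀, 1}
    (fun g => if g = g₀ then 1 else -1)
    (by
      intro w
      rw [Finset.sum_pair h1]
      simp [hg₀, Ne.symm h1]) v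
  rw [Finset.sum_pair h1] at this
  simpa [Ne.symm h1, sub_eq_add_neg] using this

end Fermat.Agent.S31
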