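import Mathlib
import Fermat.Agent.S31.Iface
import Fermat.Agent.Lib.Frobenius

/-!
# S31, piece LA: Frobenius elements and roots of unity
-/

set_option autoImplicit false

namespace Fermat.Agent.S31

/-- a Frobenius element at `ℓ` raises roots of unity of order prime to `ℓ` to the `ℓ`-th power. -/
theorem frobenius_apply_rootOfUnity (A : ValuationSubring (AlgebraicClosure ℚ)) {ℓ : ℕ}
    (hℓ : ℓ.Prime) (hA : A.LiesOverPrime ℓ) (τ : GQ) (hτ : A.IsFrobeniusAt τ ℓ)
    (m : ℕ) (hm : ¬ ℓ ∣ m) (ζ : AlgebraicClosure ℚ) (hζ : ζ ^ m = 1) : τ ζ = ζ ^ ℓ := by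
  have hm0 : m ≠ 0 := by rintro rfl; exact hm (dvd_zero _)
  have hint : IsIntegral ℤ ζ :=
    ⟨Polynomial.X ^ m - 1, Polynomial.monic_X_pow_sub_C 1 hm0, by simp [hζ]⟩
  have hζA : ζ ∈ A := Fermat.Agent.Lib.Frobenius.isIntegral_mem A hint
  obtain ⟨hσ, hfrob⟩ := hτ
  obtain ⟨z, hz⟩ : ∃ z : A, (z : AlgebraicClosure ℚ) = ζ := ⟨⟨ζ, hζA⟩, rfl⟩
  obtain ⟨g, hg⟩ : ∃ g : A.decompositionSubgroup ℚ, g = ⟨τ, hσ⟩ := ⟨_, rfl⟩
  rw [← hg] at hfrob
  have h1 : IsLocalRing.residue A (g • z) = IsLocalRing.residue A z ^ ℓ := by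
    rw [← hfrob, IsLocalRing.ResidueField.residue_smul]
  have hgz : ((g • z : A) : AlgebraicClosure ℚ) = τ ζ := by rw [hg, ← hz]; rfl
  have hzm : z ^ m = 1 := by
    apply Subtype.ext
    simpa [hz] using hζ
  have hgzm : (g • z) ^ m = 1 := by
    rw [← smul_pow', hzm, smul_one]
  obtain ⟨u, hu⟩ : ∃ u : A, u = (g • z) * z ^ ((m - 1) * ℓ) := ⟨_, rfl⟩
  have hzz : z ^ ((m - 1) * ℓ) * z ^ ℓ = 1 := by
    rw [← pow_add, show (m - 1) * ℓ + ℓ = m * ℓ by
      obtain ⟨k, rfl⟩ := Nat.exists_eq_succ_of_ne_zero hm0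
      simp [Nat.succ_mul], pow_mul, hzm, one_pow]
  have hum : u ^ m = 1 := by
    rw [hu, mul_pow, hgzm, one_mul, ← pow_mul, mul_comm, pow_mul, hzm, one_pow]
  have hures : IsLocalRing.residue A u = 1 := by
    rw [hu, map_mul, h1, ← map_pow, ← map_mul, mul_comm, hzz, map_one]
  have hu1 : u = 1 := by
    have h2 : (u - 1) * ∑ i ∈ Finset.range m, u ^ i = 0 := by
      rw [mul_comm, geom_sum_mul, hum, sub_self]
    rcases mul_eq_zero.mp h2 with h3 | h3
    · exact sub_eq_zero.mp h3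
    · exfalso
      have h4 := congrArg (IsLocalRing.residue A) h3
      rw [map_sum, map_zero] at h4
      simp only [map_pow, hures, one_pow, Finset.sum_const, Finset.card_range, nsmul_eq_mul,
        mul_one] at h4
      have h5 : IsLocalRing.residue A (m : A) = 0 := by rw [map_natCast]; exact h4
      rw [IsLocalRing.residue_eq_zero_iff] at h5
      have h6 : ((m : ℤ) : AlgebraicClosure ℚ) ∈ A.nonunits := by
        rw [ValuationSubring.mem_nonunits_iff_exists_mem_maximalIdeal]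
        refine ⟨by simp, ?_⟩
        have h8 : (⟨((m : ℤ) : AlgebraicClosure ℚ), by simp⟩ : A) = (m : A) :=
          Subtype.ext (by simp)
        rw [h8]
        exact h5
      exact Fermat.Agent.Lib.Frobenius.intCast_not_mem_nonunits A hℓ hA
        (by exact_mod_cast hm) h6
  have h7 : g • z = z ^ ℓ := by
    calc g • z = (g • z) * (z ^ ((m - 1) * ℓ) * z ^ ℓ) := by rw [hzz, mul_one]
      _ = u * z ^ ℓ := by rw [hu, mul_assoc]
      _ = z ^ ℓ := by rw [hu1, one_mul]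
  rw [← hgz, h7]
  simp [hz]

end Fermat.Agent.S31
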