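import Mathlib
import Fermat.Agent.S31.Iface

/-!
# S31, piece LB: Frobenius density on a finite level
-/

set_option autoImplicit false

namespace Fermat.Agent.S31

/-- Frobenius density, in the form: on a given finite level every `g` is a power of a Frobenius
element at a prime outside `S`. -/
theorem exists_frobenius_pow_eq_on (hdens : FrobeniusDensity)
    (L : IntermediateField ℚ (AlgebraicClosure ℚ)) [FiniteDimensional ℚ L] (S : Finset ℕ)
    (g : GQ) :
    ∃ (ℓ : ℕ) (A : ValuationSubring (AlgebraicClosure ℚ)) (τ : GQ) (b : ℕ),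
      ℓ.Prime ∧ ℓ ∉ S ∧ A.LiesOverPrime ℓ ∧ A.IsFrobeniusAt τ ℓ ∧ ∀ x ∈ L, (τ ^ b) x = g x := by
  have hnorm : Normal ℚ (AlgebraicClosure ℚ) :=
    @IsAlgClosure.normal ℚ (AlgebraicClosure ℚ) _ _ (AlgebraicClosure.instAlgebra ℚ) _
  let F : IntermediateField ℚ (AlgebraicClosure ℚ) :=
    IntermediateField.normalClosure ℚ L (AlgebraicClosure ℚ)
  have hF : FiniteDimensional ℚ F := normalClosure.is_finiteDimensional ℚ L (AlgebraicClosure ℚ)
  have hFn : Normal ℚ F := normalClosure.normal ℚ L (AlgebraicClosure ℚ)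
  have hFg : IsGalois ℚ F := { }
  have hLF : L ≤ F := IntermediateField.le_normalClosure L
  obtain ⟨ℓ, A, τ, h1, h2, h3, h4, h5⟩ := hdens F S g
  have h6 : AlgEquiv.restrictNormalHom F g ∈
      Subgroup.zpowers (AlgEquiv.restrictNormalHom F τ) := by
    rw [h5]
    exact Subgroup.mem_zpowers _
  rw [← mem_powers_iff_mem_zpowers] at h6
  obtain ⟨b, hb⟩ := h6
  refine ⟨ℓ, A, τ, b, h1, h2, h3, h4, fun x hx => ?_⟩
  have hb' : AlgEquiv.restrictNormalHom F (τ ^ b) = AlgEquiv.restrictNormalHom F g := by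
    rw [map_pow]
    exact hb
  have e1 := AlgEquiv.restrictNormal_commutes (τ ^ b) F ⟨x, hLF hx⟩
  have e2 := AlgEquiv.restrictNormal_commutes g F ⟨x, hLF hx⟩
  have e3 : (τ ^ b).restrictNormal F = g.restrictNormal F := hb'
  rw [e3] at e1
  exact e1.symm.trans e2

end Fermat.Agent.S31
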