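import Mathlib
import Fermat.Agent.S31.Defs

/-!
# S31, piece MC: congruent endomorphisms have congruent traces and determinants
-/

set_option autoImplicit false

namespace Fermat.Agent.S31

variable {R V : Type*} [CommRing R] [AddCommGroup V] [Module R V] [Module.Free R V]
  [Module.Finite R V]

omit [Module.Free R V] [Module.Finite R V] in
theorem MatC_repr_mem {ι : Type*} (b : Module.Basis ι R V) (I : Ideal R) {x : V}
    (hx : x ∈ I • (⊤ : Submodule R V)) (i : ι) : b.repr x i ∈ I := by
  refine Submodule.smul_induction_on (p := fun x => b.repr x i ∈ I) hx ?_ ?_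
  · intro a ha w _
    rw [map_smul, Finsupp.smul_apply, smul_eq_mul]
    exact I.mul_mem_right _ ha
  · intro x y hx hy
    rw [map_add, Finsupp.add_apply]
    exact I.add_mem hx hy

omit [Module.Free R V] [Module.Finite R V] in
theorem MatC_map_toMatrix_eq {ι : Type*} [Fintype ι] [DecidableEq ι] (b : Module.Basis ι R V)
    (I : Ideal R) (X X' : Module.End R V)
    (h : ∀ v : V, X v - X' v ∈ I • (⊤ : Submodule R V)) :
    (LinearMap.toMatrix b b X).map (Ideal.Quotient.mk I) =
      (LinearMap.toMatrix b b X').map (Ideal.Quotient.mk I) := by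
  ext i j
  rw [Matrix.map_apply, Matrix.map_apply, LinearMap.toMatrix_apply, LinearMap.toMatrix_apply,
    Ideal.Quotient.eq, ← Finsupp.sub_apply, ← map_sub]
  exact MatC_repr_mem b I (h (b j)) i

/-- congruent endomorphisms have congruent traces. -/
theorem trace_sub_mem (I : Ideal R) (X X' : Module.End R V)
    (h : ∀ v : V, X v - X' v ∈ I • (⊤ : Submodule R V)) :
    LinearMap.trace R V X - LinearMap.trace R V X' ∈ I := by
  classical
  let b := Module.Free.chooseBasis R V
  have hm := MatC_map_toMatrix_eq b I X X' h
  rw [LinearMap.trace_eq_matrix_trace R b, LinearMap.trace_eq_matrix_trace R b,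
    ← Ideal.Quotient.eq]
  have e : ∀ M : Matrix (Module.Free.ChooseBasisIndex R V) (Module.Free.ChooseBasisIndex R V) R,
      Ideal.Quotient.mk I M.trace = (M.map (Ideal.Quotient.mk I)).trace := by
    intro M
    simp [Matrix.trace, map_sum]
  rw [e, e, hm]

/-- congruent endomorphisms have congruent determinants. -/
theorem det_sub_mem (I : Ideal R) (X X' : Module.End R V)
    (h : ∀ v : V, X v - X' v ∈ I • (⊤ : Submodule R V)) :
    LinearMap.det X - LinearMap.det X' ∈ I := by
  classical
  let b := Module.Free.chooseBasis R V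
  have hm := MatC_map_toMatrix_eq b I X X' h
  rw [← LinearMap.det_toMatrix b X, ← LinearMap.det_toMatrix b X', ← Ideal.Quotient.eq,
    RingHom.map_det, RingHom.map_det]
  exact congrArg Matrix.det hm

end Fermat.Agent.S31
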