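import Mathlib
import Fermat.Agent.S31.Core
import Fermat.Agent.S31.AbsIrr
import Fermat.Agent.S31.Iface
import Fermat.Agent.S31.LevelA
import Fermat.Agent.S31.LevelB
import Fermat.Agent.S31.MatC

/-!
# S31 from the GR interface
-/

set_option autoImplicit false

namespace Fermat.Agent.S31

open CuspForm

variable {p : ℕ} {N : ℕ} [NeZero N] {S : Finset ℕ}
  {𝒪 : Type} [CommRing 𝒪] [IsDomain 𝒪] [IsDiscreteValuationRing 𝒪]
  [IsAdicComplete (IsLocalRing.maximalIdeal 𝒪) 𝒪]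
  {θ : CuspForm.heckeAlgebra N 2 (↑S : Set ℕ) →+* IsLocalRing.ResidueField 𝒪}
  {T : Type} [CommRing T] [IsLocalRing T] [IsNoetherianRing T]
  [IsAdicComplete (IsLocalRing.maximalIdeal T) T] [Algebra 𝒪 T] [IsLocalHom (algebraMap 𝒪 T)]
  [Module.Finite 𝒪 T] [Module.Free 𝒪 T]

/-- for every `g` a common "characteristic polynomial" for the action on `W` and on `V / 𝔪ⁿ V`. -/
theorem exists_trace_det_data (hdens : FrobeniusDensity) (hp : p.Prime) (hpS : p ∈ S)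
    (hNS : ∀ q : ℕ, q.Prime → q ∣ N → q ∈ S)
    (H : CuspForm.HeckeGaloisRepDatum N (↑S : Set ℕ) 𝒪 θ T) (n k : ℕ)
    (M : HeckeGaloisModule N (↑S : Set ℕ) p k) (ζ : AlgebraicClosure ℚ) (hζ : ζ ^ (p ^ k) = 1)
    (g : GQ) :
    ∃ (t : heckeAlgebra N 2 (↑S : Set ℕ)) (d : ℕ),
      (∀ w : M.W, M.r g (M.r g w) - t • M.r g w + (d : heckeAlgebra N 2 (↑S : Set ℕ)) • w = 0) ∧
      LinearMap.trace T H.ρ.V (H.ρ.ρ g) - H.π t ∈ IsLocalRing.maximalIdeal T ^ n ∧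
      LinearMap.det (H.ρ.ρ g) - (d : T) ∈ IsLocalRing.maximalIdeal T ^ n ∧
      g ζ = ζ ^ d := by
  obtain ⟨L1, hL1fin, hL1⟩ := H.ρ.isAdicContinuous n
  obtain ⟨L2, hL2fin, hL2⟩ := M.level
  have hpk : 0 < p ^ k := pow_pos hp.pos k
  have hζint : IsIntegral ℚ ζ := by
    refine ⟨Polynomial.X ^ (p ^ k) - 1, Polynomial.monic_X_pow_sub_C 1 hpk.ne', ?_⟩
    simp [hζ]
  haveI hL3fin : FiniteDimensional ℚ (IntermediateField.adjoin ℚ {ζ}) :=
    IntermediateField.adjoin.finiteDimensional hζint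
  haveI : FiniteDimensional ℚ (L1 ⊔ L2 : IntermediateField ℚ (AlgebraicClosure ℚ)) :=
    IntermediateField.finiteDimensional_sup L1 L2
  haveI : FiniteDimensional ℚ
      ((L1 ⊔ L2) ⊔ IntermediateField.adjoin ℚ {ζ} : IntermediateField ℚ (AlgebraicClosure ℚ)) :=
    IntermediateField.finiteDimensional_sup _ _
  obtain ⟨ℓ, A, τ, b, hℓ, hℓS, hA, hτ, hag⟩ :=
    exists_frobenius_pow_eq_on hdens ((L1 ⊔ L2) ⊔ IntermediateField.adjoin ℚ {ζ}) S g
  have hℓN : ¬ ℓ ∣ N := fun h => hℓS (hNS ℓ hℓ h)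
  have hℓS' : ℓ ∉ (↑S : Set ℕ) := fun h => hℓS (Finset.mem_coe.mp h)
  have hℓp : ℓ ≠ p := fun h => hℓS (h ▸ hpS)
  -- `u = g⁻¹ τ^b` fixes the level
  have hu : ∀ x ∈ ((L1 ⊔ L2) ⊔ IntermediateField.adjoin ℚ {ζ} :
      IntermediateField ℚ (AlgebraicClosure ℚ)), (g⁻¹ * τ ^ b) x = x := by
    intro x hx
    rw [AlgEquiv.mul_apply, hag x hx]
    exact AlgEquiv.symm_apply_apply g x
  have hu1 : ∀ x ∈ L1, (g⁻¹ * τ ^ b) x = x := fun x hx =>
    hu x ((le_sup_left.trans le_sup_left : L1 ≤ _) hx)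
  have hu2 : ∀ x ∈ L2, (g⁻¹ * τ ^ b) x = x := fun x hx =>
    hu x ((le_sup_right.trans le_sup_left : L2 ≤ _) hx)
  have hgτ : τ ^ b = g * (g⁻¹ * τ ^ b) := by group
  have hrg : M.r g = M.r τ ^ b := by
    rw [← map_pow, hgτ, map_mul, hL2 _ hu2, mul_one]
  set Tℓ : heckeAlgebra N 2 (↑S : Set ℕ) := heckeAlgebra.T hℓ hℓN hℓS' with hTℓ
  refine ⟨powSum Tℓ (ℓ : heckeAlgebra N 2 (↑S : Set ℕ)) b, ℓ ^ b, ?_, ?_, ?_, ?_⟩
  · intro w
    have hx : M.r τ * M.r τ - Tℓ • M.r τ +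
        (ℓ : heckeAlgebra N 2 (↑S : Set ℕ)) • (1 : Module.End _ M.W) = 0 := by
      refine LinearMap.ext fun w => ?_
      exact M.eichlerShimura ℓ hℓ hℓN hℓS' A hA τ hτ w
    have := LinearMap.congr_fun (pow_relation (M.r τ) Tℓ _ hx b) w
    rw [hrg]
    push_cast
    exact this
  · obtain ⟨htr, hdet⟩ := trace_det_of_charpoly H.ρ.finrank_eq (H.ρ.ρ τ) _ _
      (H.charpoly_frob ℓ hℓ hℓN hℓS' A hA τ hτ)
    have h1 : H.π (powSum Tℓ (ℓ : heckeAlgebra N 2 (↑S : Set ℕ)) b) =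
        LinearMap.trace T H.ρ.V (H.ρ.ρ (τ ^ b)) := by
      rw [map_pow, trace_pow_eq_powSum H.ρ.finrank_eq, htr, hdet, map_powSum, map_natCast]
    rw [h1]
    refine trace_sub_mem _ _ _ fun v => ?_
    rw [hgτ, map_mul, Module.End.mul_apply, ← map_sub, ← neg_sub, map_neg]
    refine Submodule.neg_mem _ ?_
    have h2 := hL1 _ hu1 v
    have h3 := Submodule.mem_map_of_mem (f := H.ρ.ρ g) h2
    rw [Submodule.map_smul''] at h3
    exact Submodule.smul_mono le_rfl le_top h3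
  · obtain ⟨htr, hdet⟩ := trace_det_of_charpoly H.ρ.finrank_eq (H.ρ.ρ τ) _ _
      (H.charpoly_frob ℓ hℓ hℓN hℓS' A hA τ hτ)
    have h1 : ((ℓ ^ b : ℕ) : T) = LinearMap.det (H.ρ.ρ (τ ^ b)) := by
      rw [map_pow, map_pow, hdet]
      push_cast
      rfl
    rw [h1]
    refine det_sub_mem _ _ _ fun v => ?_
    rw [hgτ, map_mul, Module.End.mul_apply, ← map_sub, ← neg_sub, map_neg]
    refine Submodule.neg_mem _ ?_
    have h2 := hL1 _ hu1 v
    have h3 := Submodule.mem_map_of_mem (f := H.ρ.ρ g) h2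
    rw [Submodule.map_smul''] at h3
    exact Submodule.smul_mono le_rfl le_top h3
  · have hζL : ζ ∈ ((L1 ⊔ L2) ⊔ IntermediateField.adjoin ℚ {ζ} :
        IntermediateField ℚ (AlgebraicClosure ℚ)) :=
      (le_sup_right : IntermediateField.adjoin ℚ {ζ} ≤ _)
        (IntermediateField.mem_adjoin_simple_self ℚ ζ)
    rw [← hag ζ hζL]
    have hℓpk : ¬ ℓ ∣ p ^ k := fun h =>
      hℓp ((Nat.prime_dvd_prime_iff_eq hℓ hp).mp (hℓ.dvd_of_dvd_pow h))
    have hτζ : τ ζ = ζ ^ ℓ := frobenius_apply_rootOfUnity A hℓ hA τ hτ (p ^ k) hℓpk ζ hζ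
    clear hag hu hu1 hu2 hgτ hrg
    induction b with
    | zero => simp
    | succ b ih =>
      rw [pow_succ', AlgEquiv.mul_apply, ih, map_pow, hτζ, ← pow_mul, pow_succ']

/-- **Transfer at level `n`.**  `M` a Hecke-Galois module killed by `p ^ k` which is faithful
modulo `𝔪ⁿ`; an element `∑ x(g) g` of the group algebra killing `M.W` kills `V / 𝔪ⁿ V`. -/
theorem transfer_level (hdens : FrobeniusDensity) (hp : p.Prime) (hpS : p ∈ S)
    (hNS : ∀ q : ℕ, q.Prime → q ∣ N → q ∈ S)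
    (H : CuspForm.HeckeGaloisRepDatum N (↑S : Set ℕ) 𝒪 θ T) (n k : ℕ)
    (M : HeckeGaloisModule N (↑S : Set ℕ) p k)
    (hM : ∀ a : heckeAlgebra N 2 (↑S : Set ℕ), (∀ w : M.W, a • w = 0) →
      H.π a ∈ IsLocalRing.maximalIdeal T ^ n)
    (s : Finset GQ) (x : GQ → heckeAlgebra N 2 (↑S : Set ℕ))
    (hx : ∀ w : M.W, ∑ g ∈ s, x g • M.r g w = 0) (v : H.ρ.V) :
    ∑ g ∈ s, H.π (x g) • H.ρ.ρ g v ∈
      (IsLocalRing.maximalIdeal T ^ n) • (⊤ : Submodule T H.ρ.V) := by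
  haveI : NeZero (p : ℚ) := ⟨by exact_mod_cast hp.ne_zero⟩
  obtain ⟨ζ, hζ⟩ := HasEnoughRootsOfUnity.exists_primitiveRoot (AlgebraicClosure ℚ) (p ^ k)
  choose t d hH1 hH2t hH2d hζd using
    exists_trace_det_data hdens hp hpS hNS H n k M ζ hζ.pow_eq_one
  refine core_general H.ρ.finrank_eq M.r H.ρ.ρ H.π (IsLocalRing.maximalIdeal T ^ n) t
    (fun g => ((d g : ℕ) : heckeAlgebra N 2 (↑S : Set ℕ))) hH1 ?_ hH2t ?_
    (exists_isUnit_det_commutator H.ρ H.residual_absIrr) hM s x hx v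
  · intro g h w
    have h1 : ζ ^ d (g * h) = ζ ^ (d g * d h) := by
      rw [← hζd, AlgEquiv.mul_apply, hζd h, map_pow, hζd g, ← pow_mul]
    have h2 : d (g * h) ≡ d g * d h [MOD p ^ k] := by
      have := hζ.isOfFinOrder (pow_pos hp.pos _).ne' |>.pow_eq_pow_iff_modEq.mp h1
      rwa [← hζ.eq_orderOf] at this
    rw [← Nat.cast_mul, Nat.cast_smul_eq_nsmul, Nat.cast_smul_eq_nsmul]
    have key : ∀ a b : ℕ, a ≤ b → a ≡ b [MOD p ^ k] → a • w = b • w := by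
      intro a b hab hmod
      obtain ⟨c, hc⟩ := (Nat.modEq_iff_dvd' hab).mp hmod
      have : b = a + c * p ^ k := by rw [mul_comm, ← hc]; omega
      rw [this, add_smul, mul_smul, M.killed, smul_zero, add_zero]
    rcases le_total (d (g * h)) (d g * d h) with hle | hle
    · exact key _ _ hle h2
    · exact (key _ _ hle h2.symm).symm
  · intro g
    rw [map_natCast]
    exact hH2d g

/-- faithfulness modulo `𝔪ⁿ` from the divisibility property of the interface. -/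
theorem faithful_mod (hp : p.Prime) (hp𝒪 : (p : 𝒪) ∈ IsLocalRing.maximalIdeal 𝒪)
    (H : CuspForm.HeckeGaloisRepDatum N (↑S : Set ℕ) 𝒪 θ T) (n : ℕ)
    (a : heckeAlgebra N 2 (↑S : Set ℕ))
    (h : ∃ (c : ℕ) (a' : heckeAlgebra N 2 (↑S : Set ℕ)), ¬ p ∣ c ∧ c • a = (p ^ n : ℕ) • a') :
    H.π a ∈ IsLocalRing.maximalIdeal T ^ n := by
  have hpT : (p : T) ∈ IsLocalRing.maximalIdeal T := by
    have := map_nonunit (algebraMap 𝒪 T) (p : 𝒪) hp𝒪
    rwa [map_natCast] at this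
  obtain ⟨c, a', hc, hca⟩ := h
  have h1 : (c : T) * H.π a = (p : T) ^ n * H.π a' := by
    have := congrArg H.π hca
    rw [nsmul_eq_mul, nsmul_eq_mul, map_mul, map_mul, map_natCast, map_natCast] at this
    rw [this]
    push_cast
    rfl
  have hcu : IsUnit (c : T) := by
    have hcop : Nat.Coprime p c := (Nat.Prime.coprime_iff_not_dvd hp).mpr hc
    by_contra hnu
    have hcm : (c : T) ∈ IsLocalRing.maximalIdeal T := hnu
    have h2 : ((Nat.gcd p c : ℤ) : T) ∈ IsLocalRing.maximalIdeal T := by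
      rw [Nat.gcd_eq_gcd_ab]
      push_cast
      exact Ideal.add_mem _ (Ideal.mul_mem_right _ _ hpT) (Ideal.mul_mem_right _ _ hcm)
    rw [hcop] at h2
    simp only [Nat.cast_one, Int.cast_one] at h2
    exact (Ideal.ne_top_iff_one _).mp (Ideal.IsPrime.ne_top inferInstance) h2
  rw [← Ideal.unit_mul_mem_iff_mem _ hcu, h1]
  exact Ideal.mul_mem_right _ _ (Ideal.pow_mem_pow hpT n)

/-- level `n` statement. -/
theorem apply_sub_mem (hdens : FrobeniusDensity) (hp : p.Prime)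
    (hp𝒪 : (p : 𝒪) ∈ IsLocalRing.maximalIdeal 𝒪) (hpS : p ∈ S)
    (hNS : ∀ q : ℕ, q.Prime → q ∣ N → q ∈ S)
    (hGR : HasFaithfulHeckeGaloisModules N (↑S : Set ℕ) p)
    (H : CuspForm.HeckeGaloisRepDatum N (↑S : Set ℕ) 𝒪 θ T)
    (q : ℕ) (hq : q.Prime) (hqS : q ∉ S)
    (P : ValuationSubring (AlgebraicClosure ℚ)) (hP : P.LiesOverPrime q)
    (σ : GQ) (hσ : σ ∈ P.inertiaSubgroupIn ℚ) (n : ℕ) (v : H.ρ.V) :
    H.ρ.ρ σ v - v ∈ (IsLocalRing.maximalIdeal T ^ n) • (⊤ : Submodule T H.ρ.V) := by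
  classical
  obtain ⟨c₀, hfam⟩ := hGR
  obtain ⟨M, hM⟩ := hfam (n + c₀)
  have hσ1 : M.r σ = 1 :=
    M.unramified q hq (fun h => hqS (hNS q hq h)) (fun h => hqS (h ▸ hpS)) P hP σ hσ
  by_cases h1 : σ = 1
  · subst h1
    simp
  have := transfer_level hdens hp hpS hNS H n (n + c₀) M
    (fun a ha => faithful_mod hp hp𝒪 H n a (by
      obtain ⟨c, a', hc, hca⟩ := hM a ha
      rw [Nat.add_sub_cancel] at hca
      exact ⟨c, a', hc, hca⟩))
    {σ, 1} (fun g => if g = σ then 1 else -1)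
    (by
      intro w
      rw [Finset.sum_pair h1]
      simp [hσ1, Ne.symm h1]) v
  rw [Finset.sum_pair h1] at this
  simpa [Ne.symm h1, sub_eq_add_neg] using this

theorem isUnramifiedAt_of_interface (hdens : FrobeniusDensity) (hp : p.Prime)
    (hp𝒪 : (p : 𝒪) ∈ IsLocalRing.maximalIdeal 𝒪) (hpS : p ∈ S)
    (hNS : ∀ q : ℕ, q.Prime → q ∣ N → q ∈ S)
    (hGR : HasFaithfulHeckeGaloisModules N (↑S : Set ℕ) p)
    (H : CuspForm.HeckeGaloisRepDatum N (↑S : Set ℕ) 𝒪 θ T)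
    (q : ℕ) (hq : q.Prime) (hqS : q ∉ S) :
    H.ρ.IsUnramifiedAt q := by
  intro P hP σ hσ
  refine LinearMap.ext fun v => ?_
  have h : ∀ n : ℕ, H.ρ.ρ σ v - v ∈
      (IsLocalRing.maximalIdeal T ^ n) • (⊤ : Submodule T H.ρ.V) :=
    fun n => apply_sub_mem hdens hp hp𝒪 hpS hNS hGR H q hq hqS P hP σ hσ n v
  have h2 : H.ρ.ρ σ v - v ∈ (⨅ n : ℕ, (IsLocalRing.maximalIdeal T ^ n) •
      (⊤ : Submodule T H.ρ.V)) := (Submodule.mem_iInf _).mpr h
  rw [Ideal.iInf_pow_smul_eq_bot_of_isLocalRing _ (Ideal.IsPrime.ne_top inferInstance),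
    Submodule.mem_bot, sub_eq_zero] at h2
  exact h2

end Fermat.Agent.S31
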